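import Fermat.Agent.MLT.BettiBaseChange
import Mathlib.LinearAlgebra.Dual.Lemmas
import Mathlib.LinearAlgebra.Basis.VectorSpace
import Mathlib.Algebra.Field.Subfield.Basic

/-!
# V4-Module: the localised module inside cohomology with coefficients in a field

For `A → K` with kernel `𝔭` the localised module modulo `𝔭` embeds, linearly independent bases to
linearly independent classes, in `H¹(Γ₀(L), χ_K)`, compatibly with the Hecke operators.
-/

set_option autoImplicit false

noncomputable section

open scoped MatrixGroups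
open CongruenceSubgroup

namespace FermatLib.MLT.Two.EigenEmbed

variable {A : Type} [CommRing A] {L : ℕ} (χ : (ZMod L)ˣ →* Aˣ) {K : Type} [Field K] [Algebra A K]

/-- Classes pushed to coefficients in `K`. -/
def push : BettiMod L χ A →ₗ[A] BettiMod L (bettiBaseChar K χ) K :=
  (bettiBaseEquiv (B := K) χ K).toLinearMap.comp
    ((BettiMod.map (Algebra.linearMap A K)).restrictScalars A)

theorem push_smul (P : BettiHeckeAlg A) (x : BettiMod L χ A) :
    push χ (K := K) (P • x) = MvPolynomial.map (algebraMap A K) P • push χ x := by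
  show bettiBaseEquiv χ K (BettiMod.map _ (P • x)) = _
  rw [map_smul, bettiBaseEquiv_smul]
  rfl

/-- The subfield generated by the image of `A`. -/
def imageField : Subfield K := Subfield.closure (Set.range (algebraMap A K))

theorem algebraMap_mem_imageField (a : A) : algebraMap A K a ∈ imageField (A := A) (K := K) :=
  Subfield.subset_closure ⟨a, rfl⟩

theorem exists_denom (x : K) (hx : x ∈ imageField (A := A) (K := K)) :
    ∃ a b : A, algebraMap A K b ≠ 0 ∧ algebraMap A K b * x = algebraMap A K a := by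
  rw [imageField, Subfield.mem_closure_iff] at hx
  obtain ⟨y, hy, z, hz, rfl⟩ := hx
  rw [← RingHom.coe_range, Subring.closure_eq] at hy hz
  obtain ⟨a, rfl⟩ := hy
  obtain ⟨b, rfl⟩ := hz
  by_cases hb : algebraMap A K b = 0
  · exact ⟨0, 1, by simp, by simp [hb]⟩
  · exact ⟨a, b, hb, mul_div_cancel₀ _ hb⟩

/-- A relation over `K` between classes pushed to `K` gives one over `A`. -/
theorem exists_push_eq_zero {ι : Type} [Fintype ι] (m : ι → BettiMod L χ A) (c : ι → K)
    (hc : ∑ i, c i • push χ (K := K) (m i) = 0) (i₀ : ι) (hi₀ : c i₀ ≠ 0) :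
    ∃ a : ι → A, algebraMap A K (a i₀) ≠ 0 ∧ push χ (K := K) (∑ i, a i • m i) = 0 := by
  classical
  set F := imageField (A := A) (K := K)
  obtain ⟨π, hπ⟩ : ∃ π : K →ₗ[F] F, π (c i₀) ≠ 0 := by
    by_contra h
    push Not at h
    exact hi₀ ((Module.forall_dual_apply_eq_zero_iff F (c i₀)).mp h)
  choose num den hden hnum using fun i => exists_denom _ (π (c i)).2
  let a : ι → A := fun i => (∏ j ∈ Finset.univ.erase i, den j) * num i
  set D : K := algebraMap A K (∏ j, den j) with hD
  have ha : ∀ i, algebraMap A K (a i) = D * (π (c i) : K) := fun i => by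
    show algebraMap A K (_ * num i) = _
    rw [hD, ← Finset.mul_prod_erase _ _ (Finset.mem_univ i), map_mul, map_mul, ← hnum i]
    ring
  refine ⟨a, ?_, ?_⟩
  · rw [ha]
    refine mul_ne_zero ?_ fun h => hπ (Subtype.ext h)
    rw [hD, map_prod]
    exact Finset.prod_ne_zero_iff.mpr fun j _ => hden j
  -- compute with cocycles
  choose z hz using fun i => BettiMod.mk_surjective (m i)
  obtain ⟨v, hv⟩ : ∃ v : K, ∀ γ : Gamma0 L,
      algebraMap A K (nebenChar χ γ : A) * v - v =
        ∑ i, c i * algebraMap A K ((z i : Gamma0 L → A) γ) := by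
    have h1 : BettiMod.mk (χ := bettiBaseChar K χ) (∑ i, c i • bettiCocyclesBaseEquiv χ K
        (bettiCocyclesMap _ _ (Algebra.linearMap A K) (z i))) = 0 := by
      rw [map_sum, ← hc]
      refine Finset.sum_congr rfl fun i _ => ?_
      rw [map_smul, ← hz i]
      rfl
    obtain ⟨v, hv⟩ := BettiMod.mk_eq_zero.1 h1
    refine ⟨v, fun γ => ?_⟩
    have h2 := hv γ
    rw [nebenChar_baseChar, smul_eq_mul] at h2
    rw [h2, AddSubmonoidClass.coe_finsetSum, Finset.sum_apply]
    rfl
  have hlin : ∀ γ : Gamma0 L, algebraMap A K (nebenChar χ γ : A) * (D * (π v : K)) -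
      D * (π v : K) = ∑ i, algebraMap A K (a i) * algebraMap A K ((z i : Gamma0 L → A) γ) := by
    intro γ
    have hF : ∀ (b : A) (x : K), (π (algebraMap A K b * x) : K) = algebraMap A K b * (π x : K) :=
      fun b x => congrArg Subtype.val
        (π.map_smul (⟨_, algebraMap_mem_imageField b⟩ : F) x)
    have h3 := congrArg (fun x => D * (π x : K)) (hv γ)
    simp only [map_sub, map_sum, AddSubgroupClass.coe_sub, AddSubmonoidClass.coe_finsetSum,
      Finset.mul_sum, mul_sub] at h3
    rw [hF] at h3
    rw [← mul_assoc, mul_comm (algebraMap A K _) D, mul_assoc, h3]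
    refine Finset.sum_congr rfl fun i _ => ?_
    rw [mul_comm (c i), hF, ha]
    ring
  have hzero : BettiMod.map (Algebra.linearMap A K) (∑ i, a i • m i) = 0 := by
    have hm : ∑ i, a i • m i = BettiMod.mk (∑ i, a i • z i) := by
      rw [map_sum]
      exact Finset.sum_congr rfl fun i _ => by rw [map_smul, hz]
    rw [hm, BettiMod.map_mk]
    refine BettiMod.mk_eq_zero.2 ⟨D * (π v : K), fun γ => ?_⟩
    rw [Algebra.smul_def, hlin]
    show _ = algebraMap A K (((∑ i, a i • z i : bettiCocycles _ _ A) : Gamma0 L → A) γ)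
    rw [AddSubmonoidClass.coe_finsetSum, Finset.sum_apply, map_sum]
    exact Finset.sum_congr rfl fun i _ => (map_mul _ _ _).symm
  show bettiBaseEquiv χ K (BettiMod.map (Algebra.linearMap A K) _) = 0
  rw [hzero, map_zero]

variable (S : Submonoid (BettiHeckeAlg A))

/-- A class vanishing in `K` is, localised, in `𝔭` times the module. -/
theorem mk_mem_of_push_eq_zero [IsNoetherianRing A] (hχ : χ (-1) = 1)
    (hE : BettiNonEisenstein L χ S) (hR : BettiRightExact L χ S) (x : BettiMod L χ A)
    (hx : push χ (K := K) x = 0) :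
    LocalizedModule.mk x (1 : S) ∈ RingHom.ker (algebraMap A K) •
      (⊤ : Submodule A (BettiLoc L χ A S)) := by
  classical
  let B := (algebraMap A K).range
  let instB : Algebra A B := (algebraMap A K).rangeRestrict.toAlgebra
  have hval : ∀ u : A, ((algebraMap A B u : B) : K) = algebraMap A K u := fun u => rfl
  have hker : RingHom.ker (algebraMap A B) = RingHom.ker (algebraMap A K) := by
    ext u
    rw [RingHom.mem_ker, RingHom.mem_ker, ← Subtype.coe_inj, hval, ZeroMemClass.coe_zero]
  have hsurj : Function.Surjective (algebraMap A B) := fun ⟨_, u, hu⟩ => ⟨u, Subtype.ext hu⟩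
  obtain ⟨c, rfl⟩ := BettiMod.mk_surjective x
  have hx' : BettiMod.map (Algebra.linearMap A K) (BettiMod.mk c) = 0 :=
    (bettiBaseEquiv (B := K) χ K).injective (hx.trans (map_zero _).symm)
  rw [BettiMod.map_mk] at hx'
  obtain ⟨v, hv⟩ := BettiMod.mk_eq_zero.1 hx'
  set F := imageField (A := A) (K := K)
  obtain ⟨π, hπ⟩ : ∃ π : K →ₗ[F] F, π 1 ≠ 0 := by
    by_contra h
    push Not at h
    exact one_ne_zero ((Module.forall_dual_apply_eq_zero_iff F (1 : K)).mp h)
  obtain ⟨p₁, p₂, hp₂, hp⟩ := exists_denom _ (π 1).2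
  obtain ⟨v₁, v₂, hv₂, hv'⟩ := exists_denom _ (π v).2
  have hF : ∀ (b : A) (y : K), (π (algebraMap A K b * y) : K) = algebraMap A K b * (π y : K) :=
    fun b y => congrArg Subtype.val (π.map_smul (⟨_, algebraMap_mem_imageField b⟩ : F) y)
  set a : A := p₁ * v₂
  have ha : algebraMap A K a ≠ 0 := by
    rw [map_mul, ← hp]
    exact mul_ne_zero (mul_ne_zero hp₂ fun h => hπ (Subtype.ext h)) hv₂
  set y : A := p₂ * v₁
  have hcy : ∀ γ : Gamma0 L, algebraMap A K ((nebenChar χ γ : A) * y - y) =
      algebraMap A K (a * (c : Gamma0 L → A) γ) := by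
    intro γ
    have h := hv γ
    rw [Algebra.smul_def] at h
    change algebraMap A K _ * v - v = algebraMap A K ((c : Gamma0 L → A) γ) at h
    have h' := congrArg (fun z => (π z : K)) h
    simp only [map_sub, AddSubgroupClass.coe_sub] at h'
    rw [hF, ← mul_one (algebraMap A K ((c : Gamma0 L → A) γ)), hF] at h'
    simp only [map_sub, map_mul, a, y, ← hp, ← hv']
    linear_combination (algebraMap A K p₂ * algebraMap A K v₂) * h'
  have hzero : BettiMod.map (Algebra.linearMap A B) (a • BettiMod.mk c) = 0 := by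
    rw [← map_smul BettiMod.mk, BettiMod.map_mk]
    refine BettiMod.mk_eq_zero.2 ⟨algebraMap A B y, fun γ => Subtype.ext ?_⟩
    show algebraMap A K (nebenChar χ γ : A) * algebraMap A K y - algebraMap A K y =
      algebraMap A K (a * (c : Gamma0 L → A) γ)
    simp only [← hcy, map_sub, map_mul, y]
  set w := LocalizedModule.mk (BettiMod.map (Algebra.linearMap A B) (BettiMod.mk c)) (1 : S)
    with hw
  have hw0 : w = 0 := by
    have hinj : Function.Injective (a • (LinearMap.id : B →ₗ[A] B)) := by
      intro u u' h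
      refine Subtype.ext ?_
      have := congrArg Subtype.val h
      exact mul_left_cancel₀ ha this
    refine BettiLoc.map_injective hE hinj ?_
    rw [map_zero, ← BettiLoc.mapLin_apply, map_smul, LinearMap.smul_apply, BettiLoc.mapLin_apply,
      BettiLoc.map_id, hw, LocalizedModule.smul'_mk]
    rw [LinearMap.map_smul_of_tower] at hzero
    rw [hzero, LocalizedModule.zero_mk]
  rw [← hker, ← ker_bettiLocReduce hsurj hχ hR, LinearMap.mem_ker, bettiLocReduce_eq,
    BettiLoc.map_mk]
  rw [hw] at hw0
  rw [hw0, map_zero]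

/-- The embedding: some `s ∈ S` kills everything lost by localisation. -/
theorem exists_embedding [IsNoetherianRing A] [NeZero L] (hχ : χ (-1) = 1)
    (hE : BettiNonEisenstein L χ S) (hR : BettiRightExact L χ S)
    (hsurj : Function.Surjective (LocalizedModule.mkLinearMap S (BettiMod L χ A))) :
    ∃ Φ : BettiLoc L χ A S →+ BettiMod L (bettiBaseChar K χ) K,
      (∀ (P : BettiHeckeAlg A) (x : BettiLoc L χ A S),
        Φ (P • x) = MvPolynomial.map (algebraMap A K) P • Φ x) ∧
      ∀ {ι : Type} [Fintype ι] (b : Module.Basis ι A (BettiLoc L χ A S)) (c : ι → K),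
        ∑ i, c i • Φ (b i) = 0 → c = 0 := by
  classical
  set mk₁ := LocalizedModule.mkLinearMap S (BettiMod L χ A)
  have : Module.Finite A (BettiMod L χ A) := bettiH1_gamma0_finite (A := A) (V := A) L (nebenChar χ)
  obtain ⟨G, hG⟩ := IsNoetherian.noetherian ((LinearMap.ker mk₁).restrictScalars A)
  have hkill : ∀ g ∈ G, ∃ s : S, s • g = 0 := fun g hg => by
    have h : mk₁ g = 0 := by
      have : g ∈ (LinearMap.ker mk₁).restrictScalars A := hG ▸ Submodule.subset_span hg
      exact this
    rw [LocalizedModule.mkLinearMap_apply, ← LocalizedModule.zero_mk (1 : S),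
      LocalizedModule.mk_eq] at h
    obtain ⟨u, hu⟩ := h
    exact ⟨u, by simpa [Submonoid.smul_def] using hu⟩
  choose σ hσ using hkill
  set s : S := ∏ g ∈ G.attach, σ g g.2
  have hs : ∀ n : BettiMod L χ A, mk₁ n = 0 → (s : BettiHeckeAlg A) • n = 0 := by
    intro n hn
    have hn' : n ∈ Submodule.span A (G : Set (BettiMod L χ A)) := hG ▸ hn
    clear hn
    induction hn' using Submodule.span_induction with
    | mem g hg =>
      have he : s = (∏ g' ∈ G.attach.erase ⟨g, hg⟩, σ g' g'.2) * σ g hg :=
        (Finset.prod_erase_mul _ _ (Finset.mem_attach G ⟨g, hg⟩)).symm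
      show s • g = 0
      rw [he, mul_smul, hσ g hg, smul_zero]
    | zero => rw [smul_zero]
    | add n n' _ _ h h' => rw [smul_add, h, h', add_zero]
    | smul t n _ h => rw [smul_comm, h, smul_zero]
  choose σ' hσ' using hsurj
  have hdiff : ∀ n, push χ (K := K) ((s : BettiHeckeAlg A) • σ' (mk₁ n)) =
      push χ ((s : BettiHeckeAlg A) • n) := fun n => by
    rw [← sub_eq_zero, ← map_sub, ← smul_sub, hs _ (by rw [map_sub, hσ', sub_self]), map_zero]
  let Φ : BettiLoc L χ A S →+ BettiMod L (bettiBaseChar K χ) K :=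
    AddMonoidHom.mk' (fun x => push χ ((s : BettiHeckeAlg A) • σ' x)) fun x y => by
      obtain ⟨n, rfl⟩ : ∃ n, mk₁ n = x := ⟨σ' x, hσ' x⟩
      obtain ⟨n', rfl⟩ : ∃ n, mk₁ n = y := ⟨σ' y, hσ' y⟩
      show push χ _ = _
      rw [← map_add mk₁, hdiff, hdiff, hdiff, smul_add, map_add]
  have hΦ : ∀ n, Φ (mk₁ n) = push χ ((s : BettiHeckeAlg A) • n) := hdiff
  have hΦsmul : ∀ (P : BettiHeckeAlg A) (x : BettiLoc L χ A S),
      Φ (P • x) = MvPolynomial.map (algebraMap A K) P • Φ x := by
    intro P x
    obtain ⟨n, rfl⟩ : ∃ n, mk₁ n = x := ⟨σ' x, hσ' x⟩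
    rw [← map_smul mk₁, hΦ, hΦ, smul_comm, push_smul]
  refine ⟨Φ, hΦsmul, fun {ι} _ b c hc => ?_⟩
  by_contra hne
  obtain ⟨i₀, hi₀⟩ := Function.ne_iff.mp hne
  choose m hm using fun i => (show ∃ n, mk₁ n = b i from ⟨σ' (b i), hσ' (b i)⟩)
  obtain ⟨a, ha₀, ha⟩ := exists_push_eq_zero χ (fun i => (s : BettiHeckeAlg A) • m i) c (by
    rw [← hc]
    exact Finset.sum_congr rfl fun i _ => by rw [← hm i, hΦ]) i₀ hi₀
  have hmem := mk_mem_of_push_eq_zero χ S hχ hE hR _ ha
  have hsum : LocalizedModule.mk (∑ i, a i • ((s : BettiHeckeAlg A) • m i)) (1 : S) =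
      (s : BettiHeckeAlg A) • ∑ i, a i • b i := by
    rw [← LocalizedModule.mkLinearMap_apply, map_sum, Finset.smul_sum]
    refine Finset.sum_congr rfl fun i _ => ?_
    rw [LinearMap.map_smul_of_tower, map_smul, hm, smul_comm]
  rw [hsum] at hmem
  set 𝔭 := RingHom.ker (algebraMap A K)
  have hinv : ∑ i, a i • b i ∈ 𝔭 • (⊤ : Submodule A (BettiLoc L χ A S)) := by
    obtain ⟨e, he⟩ : ∃ e : BettiLoc L χ A S →ₗ[A] BettiLoc L χ A S,
        ∀ x, e ((s : BettiHeckeAlg A) • x) = x := by
      let g : Module.End A (BettiLoc L χ A S) :=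
        Algebra.lsmul A A (BettiLoc L χ A S) (s : BettiHeckeAlg A)
      have hbij : Function.Bijective g := by
        refine ⟨fun x y h => ?_, fun y => ?_⟩
        · induction x, y using LocalizedModule.induction_on₂ with
          | h n n' t t' =>
            change (s : BettiHeckeAlg A) • LocalizedModule.mk n t =
              (s : BettiHeckeAlg A) • LocalizedModule.mk n' t' at h
            simp only [LocalizedModule.smul'_mk, LocalizedModule.mk_eq] at h ⊢
            obtain ⟨u, hu⟩ := h
            refine ⟨u * s, ?_⟩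
            simp only [Submonoid.smul_def, mul_smul,
              smul_comm (s : BettiHeckeAlg A)] at hu ⊢
            exact hu
        · induction y using LocalizedModule.induction_on with
          | h n t =>
            refine ⟨LocalizedModule.mk n (t * s), ?_⟩
            show (s : BettiHeckeAlg A) • LocalizedModule.mk n (t * s) = _
            rw [LocalizedModule.smul'_mk, LocalizedModule.mk_eq]
            exact ⟨1, by simp only [Submonoid.smul_def, one_smul, mul_smul]⟩
      exact ⟨(LinearEquiv.ofBijective g hbij).symm.toLinearMap,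
        fun x => (LinearEquiv.ofBijective g hbij).symm_apply_apply x⟩
    have := Submodule.mem_map_of_mem (f := e) hmem
    rw [he, Submodule.map_smul''] at this
    exact Submodule.smul_mono le_rfl le_top this
  have hcoord := Submodule.mem_map_of_mem (f := b.coord i₀) hinv
  rw [Submodule.map_smul'', map_sum] at hcoord
  simp only [map_smul, Module.Basis.coord_apply, Module.Basis.repr_self, Finsupp.single_apply,
    smul_eq_mul, mul_ite, mul_one, mul_zero, Finset.sum_ite_eq', Finset.mem_univ, if_true] at hcoord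
  have hin : a i₀ ∈ 𝔭 := by
    have h2 := Submodule.smul_mono (I := 𝔭) (J := 𝔭) le_rfl
      (le_top : Submodule.map (b.coord i₀) ⊤ ≤ ⊤) hcoord
    rwa [smul_eq_mul, Ideal.mul_top] at h2
  exact ha₀ hin

end FermatLib.MLT.Two.EigenEmbed

end
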