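import Fermat.Agent.MLT.Two.Hecke.PointRep
import Mathlib.FieldTheory.IsAlgClosed.AlgebraicClosure
import Mathlib.RingTheory.Localization.FractionRing

/-!
# V4-Module and V4-Sys: the Hecke module at an auxiliary level
-/

set_option autoImplicit false

noncomputable section

open CongruenceSubgroup IsLocalRing

namespace FermatLib.MLT.Two.AuxSetup

open AuxGroup FermatLib.Galois

local notation "Qbar" => AlgebraicClosure ℚ
local notation "Γℚ" => (AlgebraicClosure ℚ ≃ₐ[ℚ] AlgebraicClosure ℚ)

variable {O : Type} [CommRing O] [IsDomain O] [IsDiscreteValuationRing O]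
  [IsAdicComplete (maximalIdeal O) O] [CharZero O] {k : Type} [Field k] [Finite k]
  (S : System O k) {ι : Type} [Fintype ι] [DecidableEq ι] {n : ℕ} (P : ι → AuxPlace)
  (δ : (ZMod (auxLevel S P))ˣ →* Diamonds ι n)

theorem grp_smul (x : Both ι n) (m : Mod S P δ) :
    grp S P δ x • m = (MonoidAlgebra.single x (1 : O)) • m := rfl

/-- The monomials in the inertia characters times a basis give coordinates over `O`. -/
theorem bijective_coords {d : ℕ} (b : Module.Basis (Fin d) (Coeff O ι n) (Mod S P δ)) :
    Function.Bijective fun c : Fin d → (ι → Fin 2 → Fin (2 ^ n)) → O =>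
      ∑ l, ∑ e : ι → Fin 2 → Fin (2 ^ n),
        c l e • ((∏ i, ∏ j, opXi S P δ i j ^ (e i j : ℕ)) • b l) := by
  simp only [prod_opXi_pow, grp_smul]
  exact bijective_monomial_coords b

/-- Inertia at a place through the twisted characters. -/
theorem inertia_values {i : ι} {u : (ZMod (auxLevel S P))ˣ} (hu : δ u = AuxGroup.gen i) :
    grpSnd S P δ u * (1 + grpFst S P δ u) = opXi S P δ i 0 + opXi S P δ i 1 ∧
      grpSnd S P δ u ^ 2 * grpFst S P δ u = opXi S P δ i 0 * opXi S P δ i 1 := by
  have h1 : grpFst S P δ u = grp S P δ (AuxGroup.gen i, 1) := by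
    show grp S P δ (fstChar S P δ u) = _
    rw [fstChar, MonoidHom.comp_apply, hu]; rfl
  have h2 : grpSnd S P δ u = grp S P δ (1, AuxGroup.gen i) := by
    show grp S P δ (sndChar S P δ u) = _
    rw [sndChar, MonoidHom.comp_apply, hu]; rfl
  constructor
  · rw [h1, h2, mul_add, mul_one, ← grp_mul, Prod.mk_mul_mk, one_mul, mul_one]
    rfl
  · rw [h1, h2, opXi, opXi, sq, ← grp_mul, ← grp_mul, ← grp_mul]
    simp [xiGrp]

/-- The Hecke module at depth `n`. -/
theorem nonempty_auxHecke_aux (hmod : IsResidModular S) {B : ℕ} {pol : MvPolynomial ℕ ℤ}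
    (hpol : IsLevelPolynomial S B pol) {P : ι → AuxPlace} (hP : IsDepth S n P)
    (hB : ∀ i, B < (P i).q) : Nonempty (AuxHecke S n P pol) := by
  classical
  obtain ⟨δ, tau, hneg, hδ, htau, hgen⟩ := exists_diamond S hP
  let K := AlgebraicClosure (FractionRing O)
  have hO : Function.Injective (algebraMap O K) := by
    rw [IsScalarTower.algebraMap_eq O (FractionRing O) K]
    exact (algebraMap (FractionRing O) K).injective.comp (IsFractionRing.injective O _)
  have : CharZero K := charZero_of_injective_algebraMap hO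
  have hnt : Nontrivial (Mod S P δ) := mod_nontrivial S P δ hneg hmod
  have := mod_finite S P δ hneg
  have := mod_free S P δ hneg
  have hloc := hecke_isLocalRing S P δ hneg
  have hfin := hecke_finite S P δ hneg
  have hred : IsReduced (Hecke S P δ) := hecke_isReduced S P δ hP hO hneg hδ
  have hgood := isGoodRep_rhoP (K := K) S P δ hP hO hneg hδ
  let b : Module.Basis (Fin (Module.finrank (Coeff O ι n) (Mod S P δ))) (Coeff O ι n)
    (Mod S P δ) := Module.finBasis (Coeff O ι n) (Mod S P δ)
  have hd : 0 < Module.finrank (Coeff O ι n) (Mod S P δ) := by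
    refine Nat.pos_of_ne_zero fun h0 => ?_
    have : IsEmpty (Fin (Module.finrank (Coeff O ι n) (Mod S P δ))) := by
      rw [h0]; exact Fin.isEmpty
    have : Subsingleton (Mod S P δ) := b.repr.toEquiv.subsingleton
    exact not_subsingleton (Mod S P δ) this
  refine ⟨{
    H := Hecke S P δ
    M := Mod S P δ
    torsionFree := eq_zero_of_smul_eq_zero S P δ hneg
    red := redH S P δ
    red_algebraMap := redH_base S P δ
    ker_red := ker_redH S P δ hneg
    t := opT S P δ
    dd := opD S P δ
    ρP := rhoP S P δ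
    points := fun I hIp hI => ?_
    tau := tau
    tau_mem := htau
    xi := opXi S P δ
    xi_pow := opXi_pow S P δ
    inertia := fun I hIp hI i => ?_
    d := Module.finrank (Coeff O ι n) (Mod S P δ)
    d_pos := hd
    gen := fun l => b l
    free := bijective_coords S P δ b
    kills := fun u hu v => smul_mem_span S P δ hP hO hneg hδ hpol hB u hu v }⟩
  · have h := hgood I hIp hI
    refine ⟨h.map_eq, h.finiteLevel, h.flat, h.unramified, h.level,
      fun l hl hlN hne A hA F hF => h.frobenius l hl (fun hd => ?_) A hA F hF⟩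
    rw [auxLevel, ← mul_assoc] at hd
    rcases hl.dvd_mul.mp hd with hd | hd
    · exact hlN hd
    · obtain ⟨i, -, hi⟩ := (hl.prime.dvd_finsetProd_iff _).mp hd
      exact hne i ((Nat.prime_dvd_prime_iff_eq hl (P i).hq).mp hi).symm
  · obtain ⟨h1, h2⟩ := (hgood I hIp hI).inertia i (tau i) (htau i)
    obtain ⟨e1, e2⟩ := inertia_values S P δ (hgen i)
    exact ⟨by rw [← e1]; exact h1, by rw [← e2]; exact h2⟩

end FermatLib.MLT.Two.AuxSetup

end
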