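import Mathlib.Algebra.MonoidAlgebra.Basic
import Mathlib.GroupTheory.FiniteAbelian.Duality
import Mathlib.RingTheory.RootsOfUnity.AlgebraicallyClosed
import Mathlib.LinearAlgebra.LinearIndependent.Basic

/-!
# Characters separate the group ring of a finite abelian group
-/

set_option autoImplicit false

noncomputable section

namespace FermatLib.MLT.Two

/-- An element of `O[G]` vanishing at every point with values in `K` is zero. -/
theorem groupRing_eq_zero_of_forall_algHom {O : Type} [CommRing O] {K : Type} [Field K]
    [IsAlgClosed K] [CharZero K] [Algebra O K] (hO : Function.Injective (algebraMap O K))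
    {G : Type} [CommGroup G] [Finite G] (a : MonoidAlgebra O G)
    (h : ∀ φ : MonoidAlgebra O G →ₐ[O] K, φ a = 0) : a = 0 := by
  classical
  have : Fintype G := Fintype.ofFinite G
  have : NeZero (Monoid.exponent G) := ⟨Monoid.exponent_ne_zero_of_finite⟩
  have : NeZero ((Monoid.exponent G : ℕ) : K) := ⟨Nat.cast_ne_zero.mpr (NeZero.ne _)⟩
  let ev : G → ((G →* Kˣ) →* K) := fun g =>
    (Units.coeHom K).comp (MonoidHom.eval g)
  have hev : Function.Injective ev := fun g g' hgg =>
    (CommGroup.forall_apply_eq_apply_iff (G := G) (M := K)).mp fun χ =>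
      Units.ext (DFunLike.congr_fun hgg χ)
  have hli := (linearIndependent_monoidHom (G →* Kˣ) K).comp ev hev
  have hzero := Fintype.linearIndependent_iff.mp hli (fun g => algebraMap O K (a.coeff g)) (by
    funext χ
    have h1 := h (MonoidAlgebra.lift O K G ((Units.coeHom K).comp χ))
    rw [MonoidAlgebra.lift_apply, Finsupp.sum_fintype _ _ (by intro i; exact zero_smul _ _)] at h1
    rw [Finset.sum_apply, Pi.zero_apply, ← h1]
    exact Finset.sum_congr rfl fun g _ => (Algebra.smul_def _ _).symm)
  exact MonoidAlgebra.ext (Finsupp.ext fun g => hO (by rw [hzero g]; simp))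

end FermatLib.MLT.Two

end
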