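import Fermat.Agent.MLT.Two.Hecke.Eval
import Fermat.Agent.MLT.Two.Hecke.Characters
import Fermat.Agent.MLT.Two.Sys.Semisimple
import Fermat.Agent.Basic.EigenChar
import Mathlib.LinearAlgebra.Eigenspace.Pi
import Mathlib.RingTheory.Ideal.GoingUp

/-!
# V4-Module: the points of the Hecke algebra are systems, and it is reduced

Every prime over `0` of `O` is the kernel of a point carried by an eigenclass.  At a character of
the coefficients the action is semisimple, so an element with value zero at all the systems there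
acts as zero.
-/

set_option autoImplicit false

noncomputable section

open CongruenceSubgroup IsLocalRing

namespace FermatLib.MLT.Two.AuxSetup

open AuxGroup

section General

/-- Elements of the maximal ideal map to non-units of an integral extension. -/
theorem not_isUnit_map_of_mem_maximalIdeal {R A B : Type*} [CommRing R] [CommRing A]
    [IsLocalRing A] [Algebra R A] [CommRing B] [Nontrivial B] [Algebra R B]
    [Algebra.IsIntegral R B] (ψ : A →ₐ[R] B) {a : A} (ha : a ∈ maximalIdeal A) :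
    ¬ IsUnit (ψ a) := by
  letI := ψ.toRingHom.toAlgebra
  have : IsScalarTower R A B := IsScalarTower.of_algebraMap_eq fun c => (ψ.commutes c).symm
  have : Algebra.IsIntegral A B :=
    ⟨fun x => (Algebra.IsIntegral.isIntegral (R := R) x).tower_top⟩
  obtain ⟨Q, hQ, hQc⟩ := Ideal.exists_ideal_over_maximal_of_isIntegral
    (S := B) (maximalIdeal A) (le_maximalIdeal (RingHom.ker_ne_top _))
  intro hu
  refine hQ.ne_top (Ideal.eq_top_of_isUnit_mem _ ?_ hu)
  rw [← hQc, Ideal.mem_comap] at ha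
  exact ha

/-- A prime over `0` contains the kernel of a point. -/
theorem exists_algHom_ker_le {R A K : Type*} [CommRing R] [IsDomain R] [CommRing A] [Algebra R A]
    [Module.Finite R A] [Field K] [IsAlgClosed K] [Algebra R K]
    (hR : Function.Injective (algebraMap R K)) (I : Ideal A) [I.IsPrime]
    (hI : ∀ c : R, algebraMap R A c ∈ I → c = 0) :
    ∃ ψ : A →ₐ[R] K, ∀ z, ψ z = 0 → z ∈ I := by
  have : Module.Finite R (A ⧸ I) :=
    Module.Finite.of_surjective (Ideal.Quotient.mkₐ R I).toLinearMap Ideal.Quotient.mk_surjective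
  have := Algebra.IsIntegral.of_finite R (A ⧸ I)
  have hinj : Function.Injective (algebraMap R (A ⧸ I)) :=
    (injective_iff_map_eq_zero _).mpr fun c hc => hI c (Ideal.Quotient.eq_zero_iff_mem.mp hc)
  have : Module.IsTorsionFree R (A ⧸ I) :=
    Module.isTorsionFree_iff_algebraMap_injective.mpr hinj
  have : Module.IsTorsionFree R K := Module.isTorsionFree_iff_algebraMap_injective.mpr hR
  have : Algebra.IsAlgebraic R (A ⧸ I) := Algebra.IsIntegral.isAlgebraic
  let j : (A ⧸ I) →ₐ[R] K := IsAlgClosed.lift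
  have hj : Function.Injective j := by
    refine (RingHom.injective_iff_ker_eq_bot j.toRingHom).mpr
      (Ideal.eq_bot_of_comap_eq_bot (R := R) ?_)
    rw [eq_bot_iff]
    intro c hc
    have h1 : j (algebraMap R (A ⧸ I) c) = 0 := hc
    rw [AlgHom.commutes] at h1
    exact hR (by rw [h1, map_zero])
  exact ⟨j.comp (Ideal.Quotient.mkₐ R I), fun z hz =>
    Ideal.Quotient.eq_zero_iff_mem.mp (hj (hz.trans (map_zero j).symm))⟩

/-- Incomparability over `0`. -/
theorem ker_eq_of_le_prime {R A K : Type*} [CommRing R] [CommRing A] [Algebra R A]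
    [Algebra.IsIntegral R A] [Field K] (ψ : A →+* K) (I : Ideal A) [I.IsPrime]
    (hle : RingHom.ker ψ ≤ I) (hI : ∀ c : R, algebraMap R A c ∈ I → c = 0) :
    RingHom.ker ψ = I := by
  refine le_antisymm hle fun z hz => by_contra fun hzk => ?_
  have := RingHom.ker_isPrime ψ
  obtain ⟨c, hc, hcn⟩ := SetLike.exists_of_lt
    (Ideal.comap_lt_comap_of_integral_mem_sdiff (R := R) hle ⟨hz, hzk⟩
      (Algebra.IsIntegral.isIntegral z))
  exact hcn (by rw [hI c hc]; exact Submodule.zero_mem _)

variable {K V W : Type*} [Field K] [AddCommGroup V] [Module K V] [AddCommGroup W] [Module K W]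

/-- Powers of a shifted operator on an eigenvector. -/
theorem pow_sub_smul_apply_eigen (A : Module.End K V) (a c : K) {v : V} (h : A v = c • v)
    (i : ℕ) : ((A - a • (1 : Module.End K V)) ^ i) v = (c - a) ^ i • v := by
  induction i with
  | zero => simp
  | succ i ih =>
    rw [pow_succ', Module.End.mul_apply, ih, map_smul, LinearMap.sub_apply, LinearMap.smul_apply,
      Module.End.one_apply, h, ← sub_smul, smul_smul, ← pow_succ]

/-- Powers of shifted operators along an intertwiner. -/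
theorem pow_sub_smul_apply_map (Ψ : V →ₗ[K] W) (A : Module.End K V) (B : Module.End K W) (a : K)
    (h : ∀ x, B (Ψ x) = Ψ (A x)) (i : ℕ) (x : V) :
    ((B - a • (1 : Module.End K W)) ^ i) (Ψ x) = Ψ (((A - a • (1 : Module.End K V)) ^ i) x) := by
  induction i with
  | zero => rfl
  | succ i ih =>
    rw [pow_succ', pow_succ', Module.End.mul_apply, Module.End.mul_apply, ih,
      LinearMap.sub_apply, LinearMap.sub_apply, LinearMap.smul_apply, LinearMap.smul_apply,
      Module.End.one_apply, Module.End.one_apply, map_sub, map_smul, h]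

/-- A commutative family of endomorphisms restricted to a stable subspace. -/
def restrictEndHom {T : Type*} [Semiring T] (ρ : T →+* Module.End K V) (U : Submodule K V)
    (h : ∀ t, ∀ u ∈ U, ρ t u ∈ U) : T →+* Module.End K U where
  toFun t := (ρ t).restrict (h t)
  map_one' := LinearMap.ext fun w => Subtype.ext (by simp)
  map_mul' s t := LinearMap.ext fun w => Subtype.ext (by simp)
  map_zero' := LinearMap.ext fun w => Subtype.ext (by simp)
  map_add' s t := LinearMap.ext fun w => Subtype.ext (by simp)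

end General

variable {O : Type} [CommRing O] [IsDomain O] [IsDiscreteValuationRing O]
  [IsAdicComplete (maximalIdeal O) O] [CharZero O] {k : Type} [Field k] (S : System O k)
  {ι : Type} [Fintype ι] [DecidableEq ι] {n : ℕ} (P : ι → AuxPlace)
  (δ : (ZMod (auxLevel S P))ˣ →* Diamonds ι n)
  {K : Type} [Field K] [IsAlgClosed K] [CharZero K] [Algebra O K]

omit [IsAlgClosed K] [CharZero K] in
/-- A point of the Hecke algebra gives a residual system. -/
theorem isResidualSystem_lamOf (hneg : δ (-1) = 1) [Nontrivial (Mod S P δ)]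
    (ψ : Hecke S P δ →ₐ[O] K) :
    IsResidualSystem S (auxLevel S P) (lamOf S P δ ψ.toRingHom) := by
  intro l hl hlL
  have := hecke_finite S P δ hneg
  have := hecke_isLocalRing S P δ hneg
  haveI := Algebra.IsIntegral.of_finite O (Hecke S P δ)
  let ψ' : Hecke S P δ →ₐ[O] integralClosure O K :=
    ψ.codRestrict _ fun z =>
      (Algebra.IsIntegral.isIntegral (R := O) z).map ψ
  let g : Hecke S P δ := bettiResGen _ _ _ ⟨⟨l, hl⟩, hlL⟩
  refine ⟨ψ' g, by rw [lamOf, dif_pos ⟨hl, hlL⟩]; rfl, ?_⟩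
  have hmem : g - (S.ap l : Hecke S P δ) ∈ maximalIdeal (Hecke S P δ) := by
    rw [← ker_redH S P δ hneg, RingHom.mem_ker, map_sub, map_intCast, sub_eq_zero]
    show bettiResChar _ _ _ (bettiResGen _ _ _ _) = _
    rw [bettiResChar_gen, thetaA_X, map_intCast]
  rw [show (ψ' g - (S.ap l : integralClosure O K)) = ψ' (g - (S.ap l : Hecke S P δ)) by
    rw [map_sub, map_intCast]]
  exact not_isUnit_map_of_mem_maximalIdeal ψ' hmem

/-- An element with value zero at every system over `φ` acts as zero at `φ`. -/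
theorem smul_mem_of_forall_system (hP : IsDepth S n P) (hneg : δ (-1) = 1)
    (hδ : ∀ u, (∀ i, ZMod.unitsMap (dvd_auxLevel S P i) u = 1) → δ u = 1)
    [Nontrivial (Mod S P δ)]
    (φ : Coeff O ι n →ₐ[O] K) (z : Hecke S P δ)
    (h : ∀ ψ : Hecke S P δ →ₐ[O] K, baseOf S P δ ψ.toRingHom = φ.toRingHom →
      goodEigen (auxLevel S P) (chiOf S P δ φ.toRingHom) (lamOf S P δ ψ.toRingHom) ≠ ⊥ →
      ψ z = 0) (x : Mod S P δ) :
    (z : Module.End (Coeff O ι n) (Mod S P δ)) x ∈
      RingHom.ker φ.toRingHom • (⊤ : Submodule (Coeff O ι n) (Mod S P δ)) := by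
  classical
  obtain ⟨m, b, Ψ, hΨ, hT⟩ := exists_action S P δ hneg φ.toRingHom
  refine mem_of_evAt_eq_zero b φ.toRingHom ?_ x
  set ev := evAt b φ.toRingHom with hevdef
  have hcomm : ∀ w w', Commute (ev w) (ev w') := fun w w' => (Commute.all w w').map ev
  suffices htop : (⊤ : Submodule K (Fin m → K)) ≤ LinearMap.ker (ev z) from
    LinearMap.ext fun c => htop (Submodule.mem_top (x := c))
  rw [← Module.End.iSup_iInf_maxGenEigenspace_eq_top_of_iSup_maxGenEigenspace_eq_top_of_commute
    (fun w => ev w) (fun w w' _ => hcomm w w') fun w => Module.End.iSup_maxGenEigenspace_eq_top _]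
  refine iSup_le fun χ => ?_
  set W := ⨅ w, (ev w).maxGenEigenspace (χ w) with hWdef
  rcases eq_or_ne W ⊥ with hW0 | hW0
  · rw [hW0]; exact bot_le
  have hWst : ∀ t, ∀ u ∈ W, ev t u ∈ W := fun t u hu =>
    (Submodule.mem_iInf _).mpr fun w => Module.End.mapsTo_maxGenEigenspace_of_comm
      (hcomm w t) (χ w) ((Submodule.mem_iInf _).mp hu w)
  let ρW : Hecke S P δ →+* Module.End K W := restrictEndHom ev W hWst
  haveI : Nontrivial W := Submodule.nontrivial_iff_ne_bot.mpr hW0
  obtain ⟨mx, hmx, hle⟩ := Ideal.exists_le_maximal _ (RingHom.ker_ne_top ρW)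
  obtain ⟨v, ψ₀, hv, hvψ, -⟩ := FermatLib.Basic.exists_eigenchar_ker_le ρW mx hle
  have hv' : (v : Fin m → K) ≠ 0 := fun h0 => hv (Subtype.ext h0)
  have heig : ∀ t, ev t (v : Fin m → K) = ψ₀ t • (v : Fin m → K) := fun t =>
    congrArg Subtype.val (hvψ t)
  -- the family of generalised eigenvalues is the character of `v`
  have hχ : ∀ t, χ t = ψ₀ t := by
    intro t
    obtain ⟨j, hj⟩ := Module.End.mem_maxGenEigenspace _ _ _ |>.mp
      ((Submodule.mem_iInf _).mp v.2 t)
    rw [pow_sub_smul_apply_eigen (ev t) (χ t) (ψ₀ t) (heig t)] at hj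
    exact (sub_eq_zero.mp (pow_eq_zero_iff' |>.1 ((smul_eq_zero.mp hj).resolve_right hv') |>.1)).symm
  have hbase : ∀ a, ψ₀ (algebraMap _ _ a) = φ a := fun a => by
    have h1 := heig (algebraMap _ _ a)
    rw [hevdef, evAt_algebraMap, LinearMap.smul_apply, Module.End.one_apply] at h1
    exact smul_left_injective K hv' h1.symm
  let ψ : Hecke S P δ →ₐ[O] K :=
    { ψ₀ with
      commutes' := fun c => by
        show ψ₀ (algebraMap O _ c) = _
        rw [IsScalarTower.algebraMap_apply O (Coeff O ι n) (Hecke S P δ), hbase, AlgHom.commutes] }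
  have hbaseψ : baseOf S P δ ψ.toRingHom = φ.toRingHom := RingHom.ext hbase
  have hlam : ∀ l : goodPrimes S P,
      lamOf S P δ ψ.toRingHom (l : Nat.Primes) = ψ₀ (bettiResGen _ _ _ l) := fun l => by
    rw [lamOf, dif_pos ⟨(l : Nat.Primes).2, l.2⟩]; rfl
  have hne : goodEigen (auxLevel S P) (chiOf S P δ φ.toRingHom) (lamOf S P δ ψ.toRingHom) ≠ ⊥ := by
    rw [Submodule.ne_bot_iff]
    refine ⟨Ψ v, mem_goodEigen.mpr fun l hl => ?_, fun h0 => hv' (hΨ (h0.trans (map_zero Ψ).symm))⟩
    rw [← hT ⟨l, hl⟩, heig, map_smul]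
    exact congrArg (· • Ψ _) (hlam ⟨l, hl⟩).symm
  have hz : ψ₀ z = 0 := h ψ hbaseψ hne
  intro u hu
  have hss : Ψ u ∈ goodEigen (auxLevel S P) (chiOf S P δ φ.toRingHom)
      (lamOf S P δ ψ.toRingHom) := by
    refine mem_goodEigen_of_generalised_aux S hP (isAuxChar_chiOf S P δ hδ _)
      (isResidualSystem_lamOf S P δ hneg ψ) fun l hl => ?_
    obtain ⟨j, hj⟩ := Module.End.mem_maxGenEigenspace _ _ _ |>.mp
      ((Submodule.mem_iInf _).mp hu (bettiResGen _ _ _ ⟨l, hl⟩))
    refine ⟨j, ?_⟩
    rw [pow_sub_smul_apply_map Ψ (ev (bettiResGen _ _ _ ⟨l, hl⟩)) _ _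
      (fun c => (hT ⟨l, hl⟩ c).symm), (hlam ⟨l, hl⟩).trans (hχ _).symm, hj, map_zero]
  have hgen : ∀ l : goodPrimes S P, ev (bettiResGen _ _ _ l) u =
      ψ₀ (bettiResGen _ _ _ l) • u := fun l => hΨ (by
    rw [hT, mem_goodEigen.mp hss (l : Nat.Primes) l.2, hlam, map_smul])
  have hall : ∀ t, ev t u = ψ₀ t • u := by
    intro t
    have ht : t ∈ Algebra.adjoin (Coeff O ι n)
        (Set.range (bettiResGen (auxChar O (fstChar S P δ)) (goodPrimes S P)
          (thetaA S (ι := ι) (n := n)))) := by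
      rw [adjoin_bettiResGen]; trivial
    induction ht using Algebra.adjoin_induction with
    | mem t ht => obtain ⟨l, rfl⟩ := ht; exact hgen l
    | algebraMap a => rw [hevdef, evAt_algebraMap, hbase]; rfl
    | add t t' _ _ h1 h2 => rw [map_add, map_add, LinearMap.add_apply, h1, h2, add_smul]
    | mul t t' _ _ h1 h2 =>
      rw [map_mul, map_mul, Module.End.mul_apply, h2, map_smul, h1, smul_smul, mul_comm]
  show ev z u = 0
  rw [hall, hz, zero_smul]

omit [CharZero K] in
/-- Every prime over `0` is the kernel of a system. -/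
theorem exists_system (hO : Function.Injective (algebraMap O K)) (hneg : δ (-1) = 1)
    (I : Ideal (Hecke S P δ)) [I.IsPrime]
    (hI : ∀ c : O, algebraMap O (Hecke S P δ) c ∈ I → c = 0) :
    ∃ ψ : Hecke S P δ →ₐ[O] K, RingHom.ker ψ.toRingHom = I ∧
      goodEigen (auxLevel S P) (chiOf S P δ (baseOf S P δ ψ.toRingHom))
        (lamOf S P δ ψ.toRingHom) ≠ ⊥ := by
  have := hecke_finite S P δ hneg
  obtain ⟨ψ₁, hψ₁⟩ := exists_algHom_ker_le (A := Hecke S P δ) hO I hI
  obtain ⟨m, b, Ψ, hΨ, hT⟩ := exists_action S P δ hneg (baseOf S P δ ψ₁.toRingHom)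
  have hker : RingHom.ker (evAt b (baseOf S P δ ψ₁.toRingHom)) ≤ I := fun z hz =>
    hψ₁ z (apply_eq_zero_of_mem S P δ hneg _ ψ₁.toRingHom rfl z
      (mem_of_evAt_eq_zero b _ hz))
  obtain ⟨v, ψ₀, hv, heig, hle⟩ := FermatLib.Basic.exists_eigenchar_ker_le _ I hker
  have hbase : ∀ a, ψ₀ (algebraMap _ _ a) = baseOf S P δ ψ₁.toRingHom a := fun a => by
    have h1 := heig (algebraMap _ _ a)
    rw [evAt_algebraMap, LinearMap.smul_apply, Module.End.one_apply] at h1
    exact smul_left_injective K hv h1.symm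
  let ψ : Hecke S P δ →ₐ[O] K :=
    { ψ₀ with
      commutes' := fun c => by
        show ψ₀ (algebraMap O _ c) = _
        rw [IsScalarTower.algebraMap_apply O (Coeff O ι n) (Hecke S P δ), hbase]
        show ψ₁ _ = _
        rw [← IsScalarTower.algebraMap_apply, AlgHom.commutes] }
  haveI := Algebra.IsIntegral.of_finite O (Hecke S P δ)
  refine ⟨ψ, ker_eq_of_le_prime (R := O) ψ₀ I hle hI, ?_⟩
  rw [show baseOf S P δ ψ.toRingHom = baseOf S P δ ψ₁.toRingHom from RingHom.ext hbase,
    Submodule.ne_bot_iff]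
  refine ⟨Ψ v, mem_goodEigen.mpr fun l hl => ?_, fun h0 => hv (hΨ (h0.trans (map_zero Ψ).symm))⟩
  have hlam : lamOf S P δ ψ.toRingHom (l : ℕ) = ψ₀ (bettiResGen _ _ _ ⟨l, hl⟩) :=
    dif_pos ⟨l.2, hl⟩
  exact ((hT ⟨l, hl⟩ v).symm.trans (congrArg Ψ (heig _))).trans
    ((map_smul Ψ _ _).trans (congrArg (· • Ψ v) hlam.symm))

/-- The Hecke algebra is reduced. -/
theorem hecke_isReduced (hP : IsDepth S n P) (hO : Function.Injective (algebraMap O K))
    (hneg : δ (-1) = 1)
    (hδ : ∀ u, (∀ i, ZMod.unitsMap (dvd_auxLevel S P i) u = 1) → δ u = 1)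
    [Nontrivial (Mod S P δ)] : IsReduced (Hecke S P δ) := by
  refine ⟨fun z hz => Subtype.ext (LinearMap.ext fun x => ?_)⟩
  have := mod_finite S P δ hneg
  have := mod_free S P δ hneg
  let b := Module.Free.chooseBasis (Coeff O ι n) (Mod S P δ)
  refine b.ext_elem fun i => ?_
  rw [show ((0 : Hecke S P δ) : Module.End (Coeff O ι n) (Mod S P δ)) x = 0 from rfl, map_zero,
    Finsupp.zero_apply]
  refine groupRing_eq_zero_of_forall_algHom hO _ fun φ => ?_
  have hmem := smul_mem_of_forall_system S P δ hP hneg hδ φ z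
    (fun ψ _ _ => (hz.map ψ).eq_zero) x
  have hcoord := Submodule.mem_map_of_mem (f := b.coord i) hmem
  rw [Submodule.map_smul''] at hcoord
  have h2 := Submodule.smul_mono (I := RingHom.ker φ.toRingHom) (J := RingHom.ker φ.toRingHom)
    le_rfl (le_top : Submodule.map (b.coord i) ⊤ ≤ ⊤) hcoord
  rw [smul_eq_mul, Ideal.mul_top] at h2
  exact h2

end FermatLib.MLT.Two.AuxSetup

end
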