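import Fermat.Agent.MLT.Two.Hecke.Setup
import Fermat.Agent.MLT.Two.Hecke.EigenEmbed
import Mathlib.LinearAlgebra.Matrix.ToLin
import Mathlib.LinearAlgebra.Charpoly.Basic
import Mathlib.FieldTheory.IsAlgClosed.Basic

/-!
# V4-Module: evaluation of the Hecke algebra at a character of the coefficients

At `φ : A → K` the Hecke algebra acts on `Kᵐ`, which embeds in `H¹(Γ₀(L), χ_φ)` compatibly with
the `T l`.  An element acting as zero has value zero at every character extending `φ`.
-/

set_option autoImplicit false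

noncomputable section

open CongruenceSubgroup IsLocalRing

namespace FermatLib.MLT.Two.AuxSetup

open AuxGroup

variable {O : Type} [CommRing O] {k : Type} [Field k] (S : System O k)
  {ι : Type} [Fintype ι] [DecidableEq ι] {n : ℕ} (P : ι → AuxPlace)
  (δ : (ZMod (auxLevel S P))ˣ →* Diamonds ι n)
  {K : Type} [Field K]

/-- The nebentype at a point of the coefficients. -/
def chiOf (φ : Coeff O ι n →+* K) : (ZMod (auxLevel S P))ˣ →* Kˣ :=
  (Units.map (φ : Coeff O ι n →* K)).comp (auxChar O (fstChar S P δ))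

/-- The twist at a point of the coefficients. -/
def muOf (φ : Coeff O ι n →+* K) : (ZMod (auxLevel S P))ˣ →* Kˣ :=
  (Units.map (φ : Coeff O ι n →* K)).comp (auxChar O (sndChar S P δ))

theorem coe_chiOf (φ : Coeff O ι n →+* K) (u : (ZMod (auxLevel S P))ˣ) :
    (chiOf S P δ φ u : K) = φ (MonoidAlgebra.single (fstChar S P δ u) 1) := rfl

theorem coe_muOf (φ : Coeff O ι n →+* K) (u : (ZMod (auxLevel S P))ˣ) :
    (muOf S P δ φ u : K) = φ (MonoidAlgebra.single (sndChar S P δ u) 1) := rfl

theorem isAuxChar_chiOf (hδ : ∀ u, (∀ i, ZMod.unitsMap (dvd_auxLevel S P i) u = 1) → δ u = 1)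
    (φ : Coeff O ι n →+* K) : IsAuxChar S P n (chiOf S P δ φ) where
  pow_eq_one u := Units.ext (by
    rw [Units.val_pow_eq_pow_val, coe_chiOf, ← map_pow, MonoidAlgebra.single_pow, one_pow,
      both_pow, ← MonoidAlgebra.one_def, map_one, Units.val_one])
  eq_one u hu := Units.ext (by
    rw [coe_chiOf, fstChar, MonoidHom.comp_apply, hδ u hu, map_one, ← MonoidAlgebra.one_def,
      map_one, Units.val_one])

theorem isAuxChar_muOf (hδ : ∀ u, (∀ i, ZMod.unitsMap (dvd_auxLevel S P i) u = 1) → δ u = 1)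
    (φ : Coeff O ι n →+* K) : IsAuxChar S P n (muOf S P δ φ) where
  pow_eq_one u := Units.ext (by
    rw [Units.val_pow_eq_pow_val, coe_muOf, ← map_pow, MonoidAlgebra.single_pow, one_pow,
      both_pow, ← MonoidAlgebra.one_def, map_one, Units.val_one])
  eq_one u hu := Units.ext (by
    rw [coe_muOf, sndChar, MonoidHom.comp_apply, hδ u hu, map_one, ← MonoidAlgebra.one_def,
      map_one, Units.val_one])

/-- The restriction of a point of the Hecke algebra to the coefficients. -/
abbrev baseOf (ψ : Hecke S P δ →+* K) : Coeff O ι n →+* K :=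
  ψ.comp (algebraMap (Coeff O ι n) (Hecke S P δ))

/-- The untwisted eigenvalues at a point of the Hecke algebra. -/
def lamOf (ψ : Hecke S P δ →+* K) (l : ℕ) : K :=
  if h : l.Prime ∧ ¬ l ∣ 2 * auxLevel S P then ψ (bettiResGen _ _ _ ⟨⟨l, h.1⟩, h.2⟩) else 0

theorem charVal_of_coprime {L : ℕ} (χ : (ZMod L)ˣ →* Kˣ) {l : ℕ} (h : l.Coprime L) :
    charVal χ l = (χ (ZMod.unitOfCoprime l h) : K) := dif_pos h

theorem apply_opT (ψ : Hecke S P δ →+* K) (l : ℕ) (hl : l.Prime)
    (hlL : ¬ l ∣ 2 * auxLevel S P) :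
    ψ (opT S P δ l) = charVal (muOf S P δ (baseOf S P δ ψ)) l * lamOf S P δ ψ l := by
  rw [opT, dif_pos ⟨hl, hlL⟩, lamOf, dif_pos ⟨hl, hlL⟩, map_mul,
    charVal_of_coprime _ (hl.coprime_iff_not_dvd.mpr fun hd => hlL (hd.mul_left 2)), coe_muOf]
  rfl

theorem apply_opD (ψ : Hecke S P δ →+* K) (l : ℕ) (hl : l.Coprime (auxLevel S P)) :
    ψ (opD S P δ l) = charVal (chiOf S P δ (baseOf S P δ ψ)) l *
      charVal (muOf S P δ (baseOf S P δ ψ)) l ^ 2 * (l : K) := by
  rw [opD, dif_pos hl, map_mul, map_mul, map_pow, map_natCast, charVal_of_coprime _ hl,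
    charVal_of_coprime _ hl, coe_muOf, coe_chiOf, mul_comm (l : K), mul_right_comm]
  rfl

variable [IsDomain O] [IsDiscreteValuationRing O] [IsAdicComplete (maximalIdeal O) O] [CharZero O]
  [Algebra O K]

section matrix

variable {S P δ} {m : ℕ} (b : Module.Basis (Fin m) (Coeff O ι n) (Mod S P δ))

/-- Matrices over `K` of the Hecke algebra at `φ`. -/
def evAt (φ : Coeff O ι n →+* K) : Hecke S P δ →+* Module.End K (Fin m → K) :=
  ((Matrix.toLinAlgEquiv' (R := K) (n := Fin m)).toAlgHom.toRingHom.comp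
    (φ.mapMatrix.comp (LinearMap.toMatrixAlgEquiv b).toAlgHom.toRingHom)).comp
    (Subalgebra.val (bettiResHecke (auxChar O (fstChar S P δ)) (goodPrimes S P)
      (thetaA S (ι := ι) (n := n)))).toRingHom

omit [IsDomain O] [IsDiscreteValuationRing O] [IsAdicComplete (maximalIdeal O) O] [CharZero O]
  [Algebra O K] in
theorem evAt_apply (φ : Coeff O ι n →+* K) (z : Hecke S P δ) (c : Fin m → K) (j : Fin m) :
    evAt b φ z c j =
      ∑ i, φ (b.repr ((z : Module.End (Coeff O ι n) (Mod S P δ)) (b i)) j) * c i := by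
  show Matrix.mulVec ((LinearMap.toMatrixAlgEquiv b
    (z : Module.End (Coeff O ι n) (Mod S P δ))).map φ) c j = _
  simp only [Matrix.mulVec, dotProduct, Matrix.map_apply, LinearMap.toMatrixAlgEquiv_apply]

omit [IsDomain O] [IsDiscreteValuationRing O] [IsAdicComplete (maximalIdeal O) O] [CharZero O]
  [Algebra O K] in
theorem evAt_algebraMap (φ : Coeff O ι n →+* K) (a : Coeff O ι n) :
    evAt b φ (algebraMap _ (Hecke S P δ) a) = φ a • (1 : Module.End K (Fin m → K)) := by
  refine LinearMap.ext fun c => funext fun j => ?_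
  rw [evAt_apply, LinearMap.smul_apply, Module.End.one_apply, Pi.smul_apply, smul_eq_mul,
    Finset.sum_eq_single j]
  · simp [Module.algebraMap_end_apply]
  · intro i _ hi
    simp [Module.algebraMap_end_apply, Ne.symm hi]
  · exact fun h => absurd (Finset.mem_univ j) h

omit [IsDomain O] [IsDiscreteValuationRing O] [IsAdicComplete (maximalIdeal O) O] [CharZero O]
  [Algebra O K] in
theorem mem_of_evAt_eq_zero (φ : Coeff O ι n →+* K) {z : Hecke S P δ} (hz : evAt b φ z = 0)
    (x : Mod S P δ) : (z : Module.End (Coeff O ι n) (Mod S P δ)) x ∈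
      RingHom.ker φ • (⊤ : Submodule (Coeff O ι n) (Mod S P δ)) := by
  classical
  have hb : ∀ i, (z : Module.End (Coeff O ι n) (Mod S P δ)) (b i) ∈
      RingHom.ker φ • (⊤ : Submodule (Coeff O ι n) (Mod S P δ)) := by
    intro i
    rw [← b.sum_repr ((z : Module.End (Coeff O ι n) (Mod S P δ)) (b i))]
    refine Submodule.sum_mem _ fun j _ => Submodule.smul_mem_smul ?_ Submodule.mem_top
    have h := evAt_apply b φ z (Pi.single i 1) j
    rw [hz] at h
    simpa [Pi.single_apply, mul_ite] using h.symm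
  rw [← b.sum_repr x, map_sum]
  exact Submodule.sum_mem _ fun i _ => by rw [map_smul]; exact Submodule.smul_mem _ _ (hb i)

end matrix

/-- The action at `φ`. -/
theorem exists_action (hneg : δ (-1) = 1) (φ : Coeff O ι n →+* K) :
    ∃ (m : ℕ) (b : Module.Basis (Fin m) (Coeff O ι n) (Mod S P δ))
      (Ψ : (Fin m → K) →ₗ[K]
        bettiH1 (Gamma0 (auxLevel S P)) (nebenChar (chiOf S P δ φ)) K),
      Function.Injective Ψ ∧
      ∀ (l : goodPrimes S P) (c : Fin m → K), Ψ (evAt b φ (bettiResGen _ _ _ l) c) =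
        bettiHeckeOp (auxLevel S P) K (chiOf S P δ φ) (l : Nat.Primes) (Ψ c) := by
  classical
  letI : Algebra (Coeff O ι n) K := φ.toAlgebra
  have := coeff_isLocalRing S (ι := ι) (n := n)
  have := coeff_isAdicComplete (O := O) (ι := ι) (n := n)
  have hyp := auxHyp S P δ hneg
  have := mod_finite S P δ hneg
  have := mod_free S P δ hneg
  let b : Module.Basis (Fin (Module.finrank (Coeff O ι n) (Mod S P δ))) (Coeff O ι n)
    (Mod S P δ) := Module.finBasis (Coeff O ι n) (Mod S P δ)
  obtain ⟨Φ, hΦ, hli⟩ := EigenEmbed.exists_embedding (K := K) (auxChar O (fstChar S P δ))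
    (bettiResidualSubmonoid (goodPrimes S P) (thetaA S (ι := ι) (n := n)))
    (auxChar_neg_one hyp) hyp.bettiNonEisenstein hyp.bettiRightExact
    (mkLinearMap_charSubmonoid_surjective _ _ (fun a ha => hyp.auxTheta_C a ha) _)
  have hΦa : ∀ (a : Coeff O ι n) (x : Mod S P δ), Φ (a • x) = φ a • Φ x := fun a x => by
    rw [← algebraMap_smul (BettiHeckeAlg (Coeff O ι n)) a x, hΦ, MvPolynomial.algebraMap_eq,
      MvPolynomial.map_C, ← MvPolynomial.algebraMap_eq, algebraMap_smul]
    rfl
  let Ψ : (Fin (Module.finrank (Coeff O ι n) (Mod S P δ)) → K) →ₗ[K]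
      BettiMod (auxLevel S P) (chiOf S P δ φ) K :=
    Fintype.linearCombination K fun i => Φ (b i)
  have hΨ : ∀ c, Ψ c = ∑ i, c i • Φ (b i) := fun c => Fintype.linearCombination_apply _ _ c
  refine ⟨_, b, Ψ, fun c c' h => sub_eq_zero.mp (hli b (c - c') ?_), fun l c => ?_⟩
  · have h' : Ψ (c - c') = 0 := by rw [map_sub]; exact sub_eq_zero.mpr h
    exact (hΨ _).symm.trans h'
  have hstep : ∀ i, bettiHeckeOp (auxLevel S P) K (chiOf S P δ φ) (l : Nat.Primes) (Φ (b i)) =
      ∑ j, φ (b.repr ((bettiResGen (auxChar O (fstChar S P δ)) (goodPrimes S P)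
        (thetaA S (ι := ι) (n := n)) l).1 (b i)) j) • Φ (b j) := by
    intro i
    calc bettiHeckeOp (auxLevel S P) K (chiOf S P δ φ) (l : Nat.Primes) (Φ (b i))
        = MvPolynomial.map (algebraMap (Coeff O ι n) K) (MvPolynomial.X (l : Nat.Primes)) •
            Φ (b i) := by rw [MvPolynomial.map_X, BettiMod.X_smul]; rfl
      _ = Φ ((bettiResGen (auxChar O (fstChar S P δ)) (goodPrimes S P)
            (thetaA S (ι := ι) (n := n)) l).1 (b i)) := (hΦ _ _).symm
      _ = _ := by
        conv_lhs => rw [← b.sum_repr ((bettiResGen (auxChar O (fstChar S P δ)) (goodPrimes S P)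
          (thetaA S (ι := ι) (n := n)) l).1 (b i)), map_sum]
        exact Finset.sum_congr rfl fun j _ => hΦa _ _
  show Ψ (evAt b φ (bettiResGen _ _ _ l) c) =
    bettiHeckeOp (auxLevel S P) K (chiOf S P δ φ) (l : Nat.Primes) (Ψ c)
  rw [hΨ, hΨ]
  calc ∑ j, evAt b φ (bettiResGen _ _ _ l) c j • Φ (b j)
      = ∑ j, ∑ i, (φ (b.repr ((bettiResGen (auxChar O (fstChar S P δ)) (goodPrimes S P)
          (thetaA S (ι := ι) (n := n)) l).1 (b i)) j) * c i) • Φ (b j) :=
        Finset.sum_congr rfl fun j _ => by rw [evAt_apply, Finset.sum_smul]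
    _ = ∑ i, c i • ∑ j, φ (b.repr ((bettiResGen (auxChar O (fstChar S P δ)) (goodPrimes S P)
          (thetaA S (ι := ι) (n := n)) l).1 (b i)) j) • Φ (b j) := by
        rw [Finset.sum_comm]
        refine Finset.sum_congr rfl fun i _ => ?_
        rw [Finset.smul_sum]
        exact Finset.sum_congr rfl fun j _ => by rw [mul_comm, mul_smul]
    _ = _ := by
        refine Eq.trans ?_ (map_sum (bettiHeckeOp (auxLevel S P) K (chiOf S P δ φ)
          (l : Nat.Primes)) (fun i => c i • Φ (b i)) Finset.univ).symm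
        exact Finset.sum_congr rfl fun i _ =>
          ((LinearMap.map_smul _ (c i) (Φ (b i))).trans (congrArg (c i • ·) (hstep i))).symm

/-- An element acting as zero at `φ` has value zero at every point extending `φ`. -/
theorem apply_eq_zero_of_mem (hneg : δ (-1) = 1) (φ : Coeff O ι n →+* K)
    (ψ : Hecke S P δ →+* K) (hψ : baseOf S P δ ψ = φ) (z : Hecke S P δ)
    (hz : ∀ x, (z : Module.End (Coeff O ι n) (Mod S P δ)) x ∈
      RingHom.ker φ • (⊤ : Submodule (Coeff O ι n) (Mod S P δ))) : ψ z = 0 := by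
  have := mod_finite S P δ hneg
  obtain ⟨p, hpm, -, hpc, hp⟩ :=
    LinearMap.exists_monic_and_natDegree_eq_and_coeff_mem_pow_and_aeval_eq_zero
      (Coeff O ι n) (z : Module.End (Coeff O ι n) (Mod S P δ)) (RingHom.ker φ)
      (by rintro _ ⟨x, rfl⟩; exact hz x)
  have hp' : Polynomial.aeval z p = 0 := Subtype.val_injective
    ((Polynomial.aeval_algHom_apply (Subalgebra.val (bettiResHecke (auxChar O (fstChar S P δ))
      (goodPrimes S P) (thetaA S (ι := ι) (n := n)))) z p).symm.trans hp)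
  have h := congrArg ψ hp'
  rw [map_zero, Polynomial.aeval_eq_sum_range, map_sum,
    Finset.sum_eq_single p.natDegree] at h
  · rw [hpm.coeff_natDegree, one_smul, map_pow] at h
    exact pow_eq_zero_iff' |>.1 h |>.1
  · intro i hi hne
    have hlt : i < p.natDegree := by
      have := Finset.mem_range.1 hi
      omega
    rw [Algebra.smul_def, map_mul, show ψ (algebraMap _ _ (p.coeff i)) = φ (p.coeff i) from
      RingHom.congr_fun hψ _,
      show φ (p.coeff i) = 0 from Ideal.pow_le_self (Nat.sub_ne_zero_of_lt hlt) (hpc i), zero_mul]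
  · simp

end FermatLib.MLT.Two.AuxSetup

end
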