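import Fermat.Agent.MLT.Two.Defs
import Fermat.Agent.MLT.Two.ModuleNonzero

/-!
# A residual cuspidal eigen homomorphism at the level of a system
-/

set_option autoImplicit false

noncomputable section

open CongruenceSubgroup

namespace FermatLib.MLT.Two

variable {O : Type} [CommRing O] {k : Type} [Field k] (S : System O k)

/-- The residual system is carried by a cuspidal homomorphism of level `N` with values in
`ZMod 2`. -/
theorem exists_cuspidalHom_of_residModular (h : IsResidModular S) :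
    ∃ w : FermatLib.Modular.cuspidalHoms ℤ (Gamma0 S.anchor.N) (ZMod 2), w ≠ 0 ∧
      ∀ l : Nat.Primes, ¬ (l : ℕ) ∣ 2 * S.anchor.N →
        FermatLib.Modular.heckeCuspOp ℤ (ZMod 2) S.anchor.N l w = S.ap l • w := by
  obtain ⟨f, 𝔪, hf, hmax, h2, hcong⟩ := h
  have : NeZero S.anchor.N := ⟨S.anchor.squarefree.ne_zero⟩
  have : Module.Finite ℤ ↥(CuspForm.heckeAlgebra S.anchor.N 2 (∅ : Set ℕ)) :=
    FermatLib.Modular.heckeAlgebra_moduleFinite S.anchor.N 2 ∅
  obtain ⟨ξ, -, hT, -⟩ := Galois.exists_eigenformCharacter (S := (∅ : Set ℕ)) hf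
  let _ : Field (integralClosure ℤ ℂ ⧸ 𝔪) := Ideal.Quotient.field 𝔪
  have : CharP (integralClosure ℤ ℂ ⧸ 𝔪) 2 := by
    refine (CharP.charP_iff_prime_eq_zero Nat.prime_two).2 ?_
    rw [Nat.cast_two, ← map_ofNat (Ideal.Quotient.mk 𝔪), Ideal.Quotient.eq_zero_iff_mem]
    exact h2
  obtain ⟨w, hw0, hw⟩ := exists_cuspidalHom_zmod (p := 2) ((Ideal.Quotient.mk 𝔪).comp ξ)
  refine ⟨w, hw0, fun l hl => ?_⟩
  have hlN : ¬ (l : ℕ) ∣ S.anchor.N := fun hd => hl (hd.mul_left 2)
  obtain ⟨a, ha, ha'⟩ := hcong l l.2 hl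
  have h0 := hw (CuspForm.heckeAlgebra.T l.2 hlN (Set.notMem_empty _) -
    ((S.ap l : ℤ) : ↥(CuspForm.heckeAlgebra S.anchor.N 2 (∅ : Set ℕ)))) (by
    rw [RingHom.comp_apply, map_sub, map_intCast, Ideal.Quotient.eq_zero_iff_mem,
      show ξ (CuspForm.heckeAlgebra.T l.2 hlN (Set.notMem_empty _)) = a from
        Subtype.ext ((hT l l.2 hlN (Set.notMem_empty _)).trans ha.symm)]
    exact ha')
  rw [map_sub, map_intCast, LinearMap.sub_apply, FermatLib.Modular.heckeCuspAct_T,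
    sub_eq_zero] at h0
  exact h0.trans (Module.End.intCast_apply _ _)

end FermatLib.MLT.Two

end
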