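import Fermat.Agent.MLT.Two.ModuleNonzero
import Fermat.Agent.MLT.Two.Sys.Defs
import Fermat.Agent.MLT.Two.Sys.NonEisenstein
import Fermat.Agent.MLT.Two.Hecke.ResidHom

/-!
# V4-Module: the level module of a residually modular system is nonzero

The residual eigen system of level `N` gives a cuspidal homomorphism to `𝔽₂` with eigenvalues
`a_l mod 2`, and the module at level `L = N ∏ q` is nonzero.
-/

set_option autoImplicit false

noncomputable section

open scoped MatrixGroups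
open CongruenceSubgroup

namespace FermatLib.MLT.Two

open FermatLib.Modular

section general

variable {O : Type} [CommRing O] [IsLocalRing O] {L : ℕ} [NeZero L] {k : Type} [Field k]

/-- The level `L` module is nonzero when the residual system comes from level `N ∣ L`. -/
theorem nontrivial_levelModule_of_cuspidalHom {p N : ℕ} [Fact p.Prime] [NeZero N]
    (a : ℕ → ℤ) {w : cuspidalHoms ℤ (Gamma0 N) (ZMod p)} (hw0 : w ≠ 0) (hNL : N ∣ L)
    (hpO : (p : O) ∈ IsLocalRing.maximalIdeal O) (Pr : Set Nat.Primes)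
    (θ : BettiHeckeAlg O →+* k)
    (hC : ∀ a ∈ IsLocalRing.maximalIdeal O, θ (MvPolynomial.C a) = 0)
    (hθ : ∀ l ∈ Pr, θ (MvPolynomial.X l) = θ (MvPolynomial.C (a l : O)))
    (hPr : ∀ l ∈ Pr, ¬ (l : ℕ) ∣ L)
    (hw : ∀ l ∈ Pr, heckeCuspOp ℤ (ZMod p) N l w = a l • w)
    (h2 : NoEllipticTwo O L) (h3 : NoEllipticThree O L)
    (hl : ∃ l ∈ Pr, ((l : ℕ) : ZMod L) = 1 ∧
      (a l : ZMod p) ≠ (l : ℕ) + 1) :
    Nontrivial (LevelModule L Pr θ) := by
  set κ := IsLocalRing.ResidueField O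
  have : CharP κ p := by
    refine (CharP.charP_iff_prime_eq_zero Fact.out).2 ?_
    rw [← map_natCast (IsLocalRing.residue O), IsLocalRing.residue_eq_zero_iff]
    exact hpO
  set ι : ZMod p →+* κ := ZMod.castHom dvd_rfl κ
  have hι : Function.Injective ι := ι.injective
  set φ : cuspidalHoms ℤ (Gamma0 L) κ :=
    ⟨ι.toAddMonoidHom.comp (cuspRes hNL w).1, (cuspRes hNL w).2.comp _⟩ with hφ
  -- the eigenvalues
  have heig : ∀ l ∈ Pr, heckeCuspOp ℤ κ L l φ = a l • φ := by
    intro l hlPr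
    have hlL := hPr l hlPr
    have h1 := congrArg Subtype.val ((cuspRes_heckeCuspOp hNL hlL w).trans
      (congrArg (cuspRes hNL) (hw l hlPr)))
    refine Subtype.ext ?_
    show heckeHomOp L ℤ κ l (ι.toAddMonoidHom.comp (cuspRes hNL w).1) = _
    rw [heckeHomOp_comp_left]
    refine AddMonoidHom.ext fun g => ?_
    have h2 := DFunLike.congr_fun h1 g
    simp only [map_zsmul] at h2
    show ι (heckeHomOp L ℤ (ZMod p) l (cuspRes hNL w).1 g) =
      a l • ι ((cuspRes hNL w).1 g)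
    rw [← map_zsmul]
    exact congrArg ι h2
  have hφ0 : φ ≠ 0 := by
    intro h0
    have hres : cuspRes hNL w = 0 := Subtype.ext (AddMonoidHom.ext fun g => hι (by
      rw [show ((0 : cuspidalHoms ℤ (Gamma0 L) (ZMod p))).1 g = 0 from rfl, map_zero]
      exact DFunLike.congr_fun (congrArg Subtype.val h0) g))
    obtain ⟨l, hlPr, hl1, hne⟩ := hl
    have hlL := hPr l hlPr
    have hlN : ¬ (l : ℕ) ∣ N := fun h => hlL (h.trans hNL)
    have h1 := (hw l hlPr).symm.trans (eq_smul_of_cuspRes_eq_zero hNL hlN hl1 hres)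
    refine hw0 (Subtype.ext (AddMonoidHom.ext fun g => ?_))
    have h2 := DFunLike.congr_fun (congrArg Subtype.val h1) g
    change a l • w.1 g = ((l : ℕ) + 1) • w.1 g at h2
    rw [zsmul_eq_mul, nsmul_eq_mul, ← sub_eq_zero, ← sub_mul, mul_eq_zero] at h2
    refine h2.resolve_left ?_
    push_cast
    exact sub_ne_zero.2 hne
  set m : BettiMod L (1 : (ZMod L)ˣ →* Oˣ) κ := cuspClass O φ with hm
  have hm0 : m ≠ 0 := fun h => hφ0 (cuspClass_injective O (h.trans (map_zero _).symm))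
  set S := bettiResidualSubmonoid Pr θ
  have hPm : ∀ P ∈ MvPolynomial.supported O Pr, ∃ c : O, θ P = θ (MvPolynomial.C c) ∧
      P • m = c • m := by
    intro P hP
    induction hP using Algebra.adjoin_induction with
    | mem x hx =>
      obtain ⟨l, hlPr, rfl⟩ := hx
      refine ⟨(a l : O), hθ l hlPr, ?_⟩
      rw [hm, ← cuspClass_heckeCuspOp, heig l hlPr, map_zsmul, Int.cast_smul_eq_zsmul]
    | algebraMap a => exact ⟨a, rfl, algebraMap_smul _ a m⟩
    | add x y _ _ hx hy =>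
      obtain ⟨c, h, hc⟩ := hx
      obtain ⟨d, h', hd⟩ := hy
      exact ⟨c + d, by rw [map_add, map_add, map_add, h, h'], by rw [add_smul, add_smul, hc, hd]⟩
    | mul x y _ _ hx hy =>
      obtain ⟨c, h, hc⟩ := hx
      obtain ⟨d, h', hd⟩ := hy
      refine ⟨c * d, by rw [map_mul, map_mul, map_mul, h, h'], ?_⟩
      rw [mul_smul, hd, smul_comm x d m, hc, smul_smul, mul_comm]
  have hne : LocalizedModule.mk m (1 : S) ≠ 0 := by
    rw [← LocalizedModule.zero_mk (1 : S), Ne, LocalizedModule.mk_eq]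
    rintro ⟨⟨s, hs⟩, hu⟩
    simp only [Submonoid.smul_def, one_smul, smul_zero] at hu
    obtain ⟨c, hθc, hc⟩ := hPm s hs.1
    have hunit : IsUnit c := by
      by_contra hnu
      exact hs.2 (hθc.trans (hC c hnu))
    rw [hc] at hu
    exact hm0 (hunit.smul_left_cancel.1 (hu.trans (smul_zero c).symm))
  have hR : BettiRightExact L (1 : (ZMod L)ˣ →* Oˣ) S :=
    bettiRightExact_residual _ rfl θ (Or.inl ⟨h2, h3⟩)
  obtain ⟨y, hy⟩ := BettiLoc.map_surjective hR (f := Algebra.linearMap O κ)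
    IsLocalRing.residue_surjective (LocalizedModule.mk m (1 : S))
  exact nontrivial_of_ne y 0 fun h0 => hne (by rw [← hy, h0, map_zero])

end general

variable {O : Type} [CommRing O] {k : Type} [Field k] (S : System O k)

variable [IsLocalRing O] {ι : Type} [Fintype ι] (P : ι → AuxPlace)

/-- The level module at `N ∏ q` is nonzero. -/
theorem nontrivial_auxLevelModule (hmod : IsResidModular S) (h2O : (2 : O) ∈ IsLocalRing.maximalIdeal O)
    (Pr : Set Nat.Primes) (hPr : ∀ l : Nat.Primes, l ∈ Pr ↔ ¬ (l : ℕ) ∣ 2 * auxLevel S P)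
    (θ : BettiHeckeAlg O →+* k)
    (hC : ∀ a ∈ IsLocalRing.maximalIdeal O, θ (MvPolynomial.C a) = 0)
    (hθ : ∀ l ∈ Pr, θ (MvPolynomial.X l) = θ (MvPolynomial.C (S.ap l : O)))
    (h2 : NoEllipticTwo O (auxLevel S P)) (h3 : NoEllipticThree O (auxLevel S P)) :
    Nontrivial (LevelModule (auxLevel S P) Pr θ) := by
  have : NeZero S.anchor.N := ⟨S.anchor.squarefree.ne_zero⟩
  obtain ⟨w, hw0, hw⟩ := exists_cuspidalHom_of_residModular S hmod
  have : Fact (Nat.Prime 2) := ⟨Nat.prime_two⟩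
  obtain ⟨l, hl, hl1, hap⟩ :=
    exists_prime_red_ap_ne_zero S (auxLevel S P) (2 * auxLevel S P).primeFactors
  have hl' : ¬ (l : ℕ) ∣ 2 * auxLevel S P := fun h => hl (Nat.mem_primeFactors.mpr
    ⟨l.2, h, mul_ne_zero two_ne_zero (NeZero.ne _)⟩)
  refine nontrivial_levelModule_of_cuspidalHom (p := 2) S.ap hw0 (level_dvd_auxLevel S P)
    (by rw [Nat.cast_two]; exact h2O) Pr θ hC hθ (fun q hq h => (hPr q).1 hq (h.mul_left 2))
    (fun q hq => hw q fun h => (hPr q).1 hq (h.trans (mul_dvd_mul_left 2 (level_dvd_auxLevel S P))))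
    h2 h3 ⟨l, (hPr l).2 hl', hl1, ?_⟩
  intro h
  refine hap ?_
  have hodd : (((l : ℕ) : ZMod 2) + 1) = 0 := by
    obtain ⟨d, hd⟩ := l.2.odd_of_ne_two fun h2' => hl' (by rw [h2']; exact dvd_mul_right 2 _)
    rw [hd]
    push_cast
    rw [show (2 : ZMod 2) = 0 from rfl]
    ring
    rfl
  rw [hodd, ZMod.intCast_zmod_eq_zero_iff_dvd] at h
  obtain ⟨c, hc⟩ := h
  rw [hc, Int.cast_mul, map_mul, show ((2 : ℕ) : ℤ) = 2 from rfl, Int.cast_ofNat, map_ofNat,
    S.anchor.two_eq_zero, zero_mul]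

end FermatLib.MLT.Two

end
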