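import Fermat.Agent.MLT.Two.Systems

/-!
# V4-Module: representations at the points of an abstract twisted Hecke algebra

`H` is local and finite over `O`, with the twisted operators `t`, `dd` and the characters `fst`,
`snd` of the diamond operators.  A point carried by an eigenclass gives a representation over the
quotient by its kernel; at an untwisted point the level polynomial times the new factors has value
zero.
-/

set_option autoImplicit false

noncomputable section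

open CongruenceSubgroup IsLocalRing

namespace FermatLib.MLT.Two.PointData

open FermatLib.Galois

local notation "Qbar" => AlgebraicClosure ℚ
local notation "Γℚ" => (AlgebraicClosure ℚ ≃ₐ[ℚ] AlgebraicClosure ℚ)

variable {O : Type} [CommRing O] {k : Type} [Field k] (S : System O k)
  {ι : Type} [Fintype ι] (P : ι → AuxPlace) {H : Type} [CommRing H] (red : H →+* k)
  (t dd : ℕ → H) (fst snd : (ZMod (auxLevel S P))ˣ →* H)

/-- The properties of the representation at a prime of the Hecke algebra. -/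
structure IsGood (I : Ideal H) (ρ : Γℚ →* Matrix (Fin 2) (Fin 2) (H ⧸ I)) : Prop where
  map_eq : ∀ g, ∃ M' : Matrix (Fin 2) (Fin 2) H,
    M'.map (Ideal.Quotient.mk I) = ρ g ∧ M'.map red = S.anchor.ρ g
  finiteLevel : ∀ m : ℕ, GaloisFactorsThroughFiniteLevel
    ((Ideal.Quotient.mk (Ideal.span {(2 : H ⧸ I) ^ m})).mapMatrix.toMonoidHom.comp ρ)
  flat : ∀ m : ℕ, FlatModel.HasModelAt 2
    (Fin 2 → (H ⧸ I) ⧸ Ideal.span {(2 : H ⧸ I) ^ m}) fun g v =>
      ((ρ g).map (Ideal.Quotient.mk (Ideal.span {(2 : H ⧸ I) ^ m}))).mulVec v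
  unramified : ∀ q : ℕ, q.Prime → q ≠ 2 → ¬ q ∣ S.anchor.N → (∀ i, (P i).q ≠ q) →
    ∀ B : ValuationSubring Qbar, B.LiesOverPrime q → ∀ τ ∈ B.inertiaSubgroupIn ℚ, ρ τ = 1
  level : ∀ q : ℕ, q.Prime → q ∣ S.anchor.N → ∀ B : ValuationSubring Qbar, B.LiesOverPrime q →
    ∀ τ ∈ B.inertiaSubgroupIn ℚ, ∀ τ' ∈ B.inertiaSubgroupIn ℚ, (ρ τ - 1) * (ρ τ' - 1) = 0
  frobenius : ∀ l : ℕ, l.Prime → ¬ l ∣ 2 * auxLevel S P →
    ∀ B : ValuationSubring Qbar, B.LiesOverPrime l → ∀ F : Γℚ, B.IsFrobeniusAt F l →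
      (ρ F).trace = Ideal.Quotient.mk I (t l) ∧ (ρ F).det = Ideal.Quotient.mk I (dd l)
  inertia : ∀ i, ∀ τ ∈ (P i).A.inertiaSubgroupIn ℚ,
    (ρ τ).trace = Ideal.Quotient.mk I
      (snd (modCycloChar (auxLevel S P) τ) * (1 + fst (modCycloChar (auxLevel S P) τ))) ∧
    (ρ τ).det = Ideal.Quotient.mk I
      (snd (modCycloChar (auxLevel S P) τ) ^ 2 * fst (modCycloChar (auxLevel S P) τ))

open scoped Classical in
/-- The chosen representation at an ideal. -/
def chosen (I : Ideal H) : Γℚ →* Matrix (Fin 2) (Fin 2) (H ⧸ I) :=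
  if h : ∃ ρ, IsGood S P red t dd fst snd I ρ then h.choose else 1

theorem isGood_chosen (I : Ideal H) (h : ∃ ρ, IsGood S P red t dd fst snd I ρ) :
    IsGood S P red t dd fst snd I (chosen S P red t dd fst snd I) := by
  rw [chosen, dif_pos h]
  exact h.choose_spec

variable {S P red t dd fst snd} [IsDomain O] [IsDiscreteValuationRing O]
  [IsAdicComplete (maximalIdeal O) O] [CharZero O] [Finite k] [DecidableEq ι]
  [IsLocalRing H] [Algebra O H] [Module.Finite O H] {n : ℕ}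
  {K : Type} [Field K] [IsAlgClosed K] [CharZero K] [Algebra O K]

/-- A point carried by an eigenclass has a good representation on the quotient by its kernel. -/
theorem exists_isGood (hP : IsDepth S n P) (hO : Function.Injective (algebraMap O K))
    (hker : RingHom.ker red = maximalIdeal H) (hredO : ∀ c : O, red (algebraMap O H c) = S.red c)
    (hredt : ∀ l : ℕ, l.Prime → ¬ l ∣ 2 * auxLevel S P → red (t l) = S.red (S.ap l : O))
    (ψ : H →ₐ[O] K) {χ μ : (ZMod (auxLevel S P))ˣ →* Kˣ} (hχ : IsAuxChar S P n χ)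
    (hμ : IsAuxChar S P n μ) (hfst : ∀ u, ψ (fst u) = (χ u : K))
    (hsnd : ∀ u, ψ (snd u) = (μ u : K)) {lam : ℕ → K}
    (hlam : ∀ l : ℕ, l.Prime → ¬ l ∣ 2 * auxLevel S P → ψ (t l) = charVal μ l * lam l)
    (hdd : ∀ l : ℕ, l.Prime → ¬ l ∣ 2 * auxLevel S P →
      ψ (dd l) = charVal χ l * charVal μ l ^ 2 * (l : K))
    (hne : goodEigen (auxLevel S P) χ lam ≠ ⊥) (I : Ideal H) (hI : RingHom.ker ψ.toRingHom = I) :
    ∃ ρ, IsGood S P red t dd fst snd I ρ := by
  subst hI
  set I := RingHom.ker ψ.toRingHom with hIdef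
  have : I.IsPrime := RingHom.ker_isPrime _
  have : Module.Finite O (H ⧸ I) :=
    Module.Finite.of_surjective (Ideal.Quotient.mkₐ O I).toLinearMap Ideal.Quotient.mk_surjective
  have : IsLocalRing (H ⧸ I) :=
    IsLocalRing.of_surjective' (Ideal.Quotient.mk I) Ideal.Quotient.mk_surjective
  have hle : I ≤ RingHom.ker red := hker ▸ le_maximalIdeal (RingHom.ker_ne_top _)
  let j : H ⧸ I →+* K := RingHom.kerLift ψ.toRingHom
  have hj : Function.Injective j := RingHom.kerLift_injective _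
  let redA : H ⧸ I →+* k := Ideal.Quotient.lift I red hle
  have hjmk : ∀ z, j (Ideal.Quotient.mk I z) = ψ z := fun z => rfl
  obtain ⟨ρ, hρ⟩ := exists_pointRep S (K := K) (j := j) (redA := redA) (lam := lam) hP hO hχ hμ hj
    (RingHom.ext fun c => ψ.commutes c) (RingHom.ext hredO)
    (fun u => ⟨⟨Ideal.Quotient.mk I (fst u), hfst u⟩, ⟨Ideal.Quotient.mk I (snd u), hsnd u⟩⟩)
    (fun l hl hlL => ⟨Ideal.Quotient.mk I (t l), hlam l hl hlL, hredt l hl hlL⟩) hne
  refine ⟨ρ, ⟨fun g => ?_, hρ.finiteLevel, hρ.flat, hρ.unramified, hρ.level,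
    fun l hl hlL B hB F hF => ?_, fun i τ hτ => ?_⟩⟩
  · choose M hM using fun a b => Ideal.Quotient.mk_surjective (ρ g a b)
    refine ⟨Matrix.of M, Matrix.ext fun a b => hM a b, Matrix.ext fun a b => ?_⟩
    show red (M a b) = _
    rw [← hρ.map_eq g, Matrix.map_apply, ← hM a b]
    rfl
  · obtain ⟨h1, h2⟩ := hρ.frobenius l hl hlL B hB F hF
    exact ⟨hj (by rw [h1, hjmk, hlam l hl hlL]), hj (by rw [h2, hjmk, hdd l hl hlL])⟩
  · obtain ⟨h1, h2⟩ := hρ.inertia i τ hτ
    exact ⟨hj (by rw [h1, hjmk, map_mul, map_add, map_one, hfst, hsnd]),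
      hj (by rw [h2, hjmk, map_mul, map_pow, hfst, hsnd])⟩

/-- At an untwisted point the polynomial times the new factors has value zero. -/
theorem apply_kills (hP : IsDepth S n P) (hO : Function.Injective (algebraMap O K))
    (hker : RingHom.ker red = maximalIdeal H)
    (ψ : H →ₐ[O] K) (hfst : ∀ u, ψ (fst u) = 1) (hsnd : ∀ u, ψ (snd u) = 1) {lam : ℕ → K}
    (hlam : ∀ l : ℕ, l.Prime → ¬ l ∣ 2 * auxLevel S P → ψ (t l) = lam l)
    (hdd : ∀ l : ℕ, l.Prime → ¬ l ∣ 2 * auxLevel S P → ψ (dd l) = (l : K))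
    (hne : goodEigen (auxLevel S P) (1 : (ZMod (auxLevel S P))ˣ →* Kˣ) lam ≠ ⊥)
    (I : Ideal H) (hI : RingHom.ker ψ.toRingHom = I)
    {ρ : Γℚ →* Matrix (Fin 2) (Fin 2) (H ⧸ I)} (hρ : IsGood S P red t dd fst snd I ρ)
    {B : ℕ} {pol : MvPolynomial ℕ ℤ} (hpol : IsLevelPolynomial S B pol)
    (hB : ∀ i, B < (P i).q) (u : ι → H)
    (hu : ∀ i, Ideal.Quotient.mk I (u i) = (ρ (P i).F).trace) :
    ψ ((∏ i, (u i ^ 2 - (((P i).q + 1 : ℕ) : H) ^ 2)) * MvPolynomial.aeval t pol) = 0 := by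
  have : I.IsPrime := hI ▸ RingHom.ker_isPrime _
  have : Module.Finite O (H ⧸ I) :=
    Module.Finite.of_surjective (Ideal.Quotient.mkₐ O I).toLinearMap Ideal.Quotient.mk_surjective
  have : IsLocalRing (H ⧸ I) :=
    IsLocalRing.of_surjective' (Ideal.Quotient.mk I) Ideal.Quotient.mk_surjective
  have hle : I ≤ RingHom.ker red := hker ▸ le_maximalIdeal (Ideal.IsPrime.ne_top ‹_›)
  let j : H ⧸ I →+* K := Ideal.Quotient.lift I ψ.toRingHom hI.ge
  have hj : Function.Injective j := RingHom.lift_injective_of_ker_le_ideal I hI.ge hI.le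
  have hjmk : ∀ z, j (Ideal.Quotient.mk I z) = ψ z := fun z => rfl
  have hone : ∀ l : ℕ, l.Prime → ¬ l ∣ 2 * auxLevel S P →
      charVal (1 : (ZMod (auxLevel S P))ˣ →* Kˣ) l = 1 := fun l hl hlL => by
    rw [charVal, dif_pos (hl.coprime_iff_not_dvd.mpr fun hd => hlL (hd.mul_left 2))]; rfl
  have hrep : IsPointRep S P j (Ideal.Quotient.lift I red hle) 1 1 lam ρ := by
    refine ⟨fun g => ?_, hρ.finiteLevel, hρ.flat, hρ.unramified, hρ.level,
      fun l hl hlL B' hB' F hF => ?_, fun i τ hτ => ?_⟩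
    · obtain ⟨M, hM, hM'⟩ := hρ.map_eq g
      rw [← hM, ← hM', Matrix.map_map]
      rfl
    · obtain ⟨h1, h2⟩ := hρ.frobenius l hl hlL B' hB' F hF
      rw [h1, h2, hjmk, hjmk, hlam l hl hlL, hdd l hl hlL, hone l hl hlL, one_mul]
      exact ⟨rfl, by ring⟩
    · obtain ⟨h1, h2⟩ := hρ.inertia i τ hτ
      rw [h1, h2, hjmk, hjmk, map_mul, map_mul, map_add, map_one, map_pow, hfst, hsnd]
      exact ⟨by simp, by simp⟩
  rw [map_mul, map_prod]
  rcases aeval_eq_zero_or_trace_sq S hP hO hpol hB hj (RingHom.ext fun c => ψ.commutes c) hrep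
      hne with h | ⟨i, hi⟩
  · refine mul_eq_zero_of_right _ ?_
    rw [← h]
    refine MvPolynomial.hom_congr_vars
      (f₁ := ψ.toRingHom.comp (MvPolynomial.aeval t).toRingHom)
      (f₂ := (MvPolynomial.aeval lam).toRingHom) (RingHom.ext_int _ _) (fun l hl _ => ?_) rfl
    show ψ (MvPolynomial.aeval _ (MvPolynomial.X l)) = MvPolynomial.aeval _ _
    rw [MvPolynomial.aeval_X, MvPolynomial.aeval_X]
    obtain ⟨hp, hN, hle'⟩ := hpol.vars_good l hl
    refine hlam l hp fun hd => ?_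
    rw [auxLevel, ← mul_assoc] at hd
    rcases hp.dvd_mul.mp hd with hd | hd
    · exact hN hd
    · obtain ⟨i, -, hi⟩ := (hp.prime.dvd_finsetProd_iff _).mp hd
      exact absurd ((Nat.prime_dvd_prime_iff_eq hp (P i).hq).mp hi ▸ hle') (not_le.mpr (hB i))
  · refine mul_eq_zero_of_left (Finset.prod_eq_zero (Finset.mem_univ i) ?_) _
    rw [map_sub, map_pow, map_pow, map_natCast, ← hjmk, hu i, hi, sub_self]

end FermatLib.MLT.Two.PointData

end
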