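import Fermat.Agent.MLT.Two.Hecke.EigenSystems
import Fermat.Agent.MLT.Two.Hecke.PointData

/-!
# V4-Module: the representations at the points, and the kills

At a prime over `0` of the Hecke algebra the representation of its system has coefficients in the
quotient, with properties read there.  At the augmentation every system is killed by the level
polynomial times the factors of forms new at the places.
-/

set_option autoImplicit false

noncomputable section

open CongruenceSubgroup IsLocalRing

namespace FermatLib.MLT.Two.AuxSetup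

open AuxGroup FermatLib.Galois

local notation "Qbar" => AlgebraicClosure ℚ
local notation "Γℚ" => (AlgebraicClosure ℚ ≃ₐ[ℚ] AlgebraicClosure ℚ)

variable {O : Type} [CommRing O] [IsDomain O] [IsDiscreteValuationRing O]
  [IsAdicComplete (maximalIdeal O) O] [CharZero O] {k : Type} [Field k] [Finite k]
  (S : System O k) {ι : Type} [Fintype ι] [DecidableEq ι] {n : ℕ} (P : ι → AuxPlace)
  (δ : (ZMod (auxLevel S P))ˣ →* Diamonds ι n) [Nontrivial (Mod S P δ)]
  {K : Type} [Field K] [IsAlgClosed K] [CharZero K] [Algebra O K]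

/-- The first diamond character in the Hecke algebra. -/
def grpFst : (ZMod (auxLevel S P))ˣ →* Hecke S P δ :=
  ((algebraMap (Coeff O ι n) (Hecke S P δ) : Coeff O ι n →* Hecke S P δ).comp
    (MonoidAlgebra.of O (Both ι n))).comp (fstChar S P δ)

/-- The second diamond character in the Hecke algebra. -/
def grpSnd : (ZMod (auxLevel S P))ˣ →* Hecke S P δ :=
  ((algebraMap (Coeff O ι n) (Hecke S P δ) : Coeff O ι n →* Hecke S P δ).comp
    (MonoidAlgebra.of O (Both ι n))).comp (sndChar S P δ)

/-- The properties of the representation at a prime of this Hecke algebra. -/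
abbrev IsGoodRep (I : Ideal (Hecke S P δ))
    (ρ : Γℚ →* Matrix (Fin 2) (Fin 2) (Hecke S P δ ⧸ I)) : Prop :=
  PointData.IsGood S P (redH S P δ) (opT S P δ) (opD S P δ) (grpFst S P δ) (grpSnd S P δ) I ρ

/-- The chosen representation at an ideal. -/
def rhoP (I : Ideal (Hecke S P δ)) : Γℚ →* Matrix (Fin 2) (Fin 2) (Hecke S P δ ⧸ I) :=
  PointData.chosen S P (redH S P δ) (opT S P δ) (opD S P δ) (grpFst S P δ) (grpSnd S P δ) I

theorem isGoodRep_rhoP (hP : IsDepth S n P) (hO : Function.Injective (algebraMap O K))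
    (hneg : δ (-1) = 1)
    (hδ : ∀ u, (∀ i, ZMod.unitsMap (dvd_auxLevel S P i) u = 1) → δ u = 1)
    (I : Ideal (Hecke S P δ)) (hIp : I.IsPrime)
    (hI : ∀ c : O, algebraMap O (Hecke S P δ) c ∈ I → c = 0) :
    IsGoodRep S P δ I (rhoP S P δ I) := by
  obtain ⟨ψ, hker, hne⟩ := exists_system S P δ hO hneg I hI
  have := hecke_isLocalRing S P δ hneg
  have := hecke_finite S P δ hneg
  exact PointData.isGood_chosen _ _ _ _ _ _ _ _ (PointData.exists_isGood hP hO
    (ker_redH S P δ hneg) (redH_base S P δ) (redH_opT S P δ) ψ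
    (χ := chiOf S P δ (baseOf S P δ ψ.toRingHom)) (μ := muOf S P δ (baseOf S P δ ψ.toRingHom))
    (isAuxChar_chiOf S P δ hδ _) (isAuxChar_muOf S P δ hδ _) (fun u => rfl) (fun u => rfl)
    (lam := lamOf S P δ ψ.toRingHom) (fun l hl hlL => apply_opT S P δ ψ.toRingHom l hl hlL)
    (fun l hl hlL => apply_opD S P δ ψ.toRingHom l
      (hl.coprime_iff_not_dvd.mpr fun hd => hlL (hd.mul_left 2))) hne I hker)

omit [IsDomain O] [IsDiscreteValuationRing O] [IsAdicComplete (maximalIdeal O) O] [CharZero O]
  [Finite k] [Nontrivial (Mod S P δ)] in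
/-- The augmentation ideal lands in the ideal of the inertia characters minus one. -/
theorem algebraMap_mem_span (a : Coeff O ι n) (ha : groupAug a = 0) :
    algebraMap (Coeff O ι n) (Hecke S P δ) a ∈
      Ideal.span (Set.range fun p : ι × Fin 2 => opXi S P δ p.1 p.2 - 1) := by
  set J := Ideal.span (Set.range fun p : ι × Fin 2 => opXi S P δ p.1 p.2 - 1)
  have hxi : ∀ i j, Ideal.Quotient.mk J (opXi S P δ i j) = 1 := fun i j => by
    rw [← map_one (Ideal.Quotient.mk J), Ideal.Quotient.eq]
    exact Ideal.subset_span ⟨(i, j), rfl⟩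
  have hgrp : ∀ x, Ideal.Quotient.mk J (grp S P δ x) = 1 := fun x => by
    obtain ⟨e, rfl⟩ := monomial_bijective.2 x
    simp [← prod_opXi_pow, hxi]
  have key : ∀ b : Coeff O ι n, Ideal.Quotient.mk J (algebraMap _ (Hecke S P δ) b) =
      Ideal.Quotient.mk J (algebraMap O (Hecke S P δ) (groupAug b)) := by
    intro b
    induction b using MonoidAlgebra.induction_linear with
    | zero => simp
    | add b c hb hc => simp only [map_add, hb, hc]
    | single x c =>
      rw [groupAug_single, show MonoidAlgebra.single x c =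
        algebraMap O (Coeff O ι n) c * MonoidAlgebra.single x 1 by simp,
        map_mul, map_mul, ← IsScalarTower.algebraMap_apply]
      show _ * Ideal.Quotient.mk J (grp S P δ x) = _
      rw [hgrp, mul_one]
  rw [← Ideal.Quotient.eq_zero_iff_mem, key, ha, map_zero, map_zero]

/-- The level polynomial times the new factors vanishes on the untwisted quotient. -/
theorem smul_mem_span (hP : IsDepth S n P) (hO : Function.Injective (algebraMap O K))
    (hneg : δ (-1) = 1)
    (hδ : ∀ u, (∀ i, ZMod.unitsMap (dvd_auxLevel S P i) u = 1) → δ u = 1)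
    {B : ℕ} {pol : MvPolynomial ℕ ℤ} (hpol : IsLevelPolynomial S B pol)
    (hB : ∀ i, B < (P i).q) (u : ι → Hecke S P δ)
    (hu : ∀ I : Ideal (Hecke S P δ), I.IsPrime →
      (∀ c : O, algebraMap O (Hecke S P δ) c ∈ I → c = 0) →
      ∀ i, Ideal.Quotient.mk I (u i) = (rhoP S P δ I (P i).F).trace) (x : Mod S P δ) :
    ((∏ i, (u i ^ 2 - (((P i).q + 1 : ℕ) : Hecke S P δ) ^ 2)) *
        MvPolynomial.aeval (opT S P δ) pol) • x ∈
      Ideal.span (Set.range fun p : ι × Fin 2 => opXi S P δ p.1 p.2 - 1) •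
        (⊤ : Submodule (Hecke S P δ) (Mod S P δ)) := by
  let φ : Coeff O ι n →ₐ[O] K := (Algebra.ofId O K).comp groupAug
  have hmem := smul_mem_of_forall_system S P δ hP hneg hδ φ
    ((∏ i, (u i ^ 2 - (((P i).q + 1 : ℕ) : Hecke S P δ) ^ 2)) *
      MvPolynomial.aeval (opT S P δ) pol) (fun ψ hψ hne => ?_) x
  · refine Submodule.smul_induction_on (p := fun y : Mod S P δ => y ∈
      Ideal.span (Set.range fun p : ι × Fin 2 => opXi S P δ p.1 p.2 - 1) •
        (⊤ : Submodule (Hecke S P δ) (Mod S P δ))) hmem (fun a ha m _ => ?_)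
      fun a b ha hb => add_mem ha hb
    have ha' : groupAug a = 0 := hO (ha.trans (map_zero _).symm)
    rw [show a • m = algebraMap (Coeff O ι n) (Hecke S P δ) a • m from rfl]
    exact Submodule.smul_mem_smul (algebraMap_mem_span S P δ a ha') Submodule.mem_top
  -- the value at a system over the augmentation
  have := hecke_isLocalRing S P δ hneg
  have := hecke_finite S P δ hneg
  have hIp : (RingHom.ker ψ.toRingHom).IsPrime := RingHom.ker_isPrime _
  have hI : ∀ c : O, algebraMap O (Hecke S P δ) c ∈ RingHom.ker ψ.toRingHom → c = 0 := fun c hc =>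
    hO ((ψ.commutes c).symm.trans (Eq.trans hc (map_zero _).symm))
  have hχ1 : chiOf S P δ φ.toRingHom = 1 := MonoidHom.ext fun v => Units.ext (by
    rw [coe_chiOf]
    show algebraMap O K (groupAug _) = _
    rw [groupAug_single, map_one]; rfl)
  have hμ1 : muOf S P δ φ.toRingHom = 1 := MonoidHom.ext fun v => Units.ext (by
    rw [coe_muOf]
    show algebraMap O K (groupAug _) = _
    rw [groupAug_single, map_one]; rfl)
  have hone : ∀ l : ℕ, l.Coprime (auxLevel S P) →
      charVal (1 : (ZMod (auxLevel S P))ˣ →* Kˣ) l = 1 := fun l hl => by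
    rw [charVal_of_coprime _ hl]; rfl
  have hcop : ∀ l : ℕ, l.Prime → ¬ l ∣ 2 * auxLevel S P → l.Coprime (auxLevel S P) :=
    fun l hl hlL => hl.coprime_iff_not_dvd.mpr fun hd => hlL (hd.mul_left 2)
  rw [hχ1] at hne
  refine PointData.apply_kills hP hO (ker_redH S P δ hneg) ψ (fun v => ?_) (fun v => ?_)
    (lam := lamOf S P δ ψ.toRingHom) (fun l hl hlL => ?_) (fun l hl hlL => ?_) hne _ rfl
    (isGoodRep_rhoP S P δ hP hO hneg hδ _ hIp hI) hpol hB u (hu _ hIp hI)
  · show (chiOf S P δ (baseOf S P δ ψ.toRingHom) v : K) = 1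
    rw [hψ, hχ1]; rfl
  · show (muOf S P δ (baseOf S P δ ψ.toRingHom) v : K) = 1
    rw [hψ, hμ1]; rfl
  · show ψ.toRingHom (opT S P δ l) = _
    rw [apply_opT S P δ _ l hl hlL, hψ, hμ1, hone l (hcop l hl hlL), one_mul]
  · show ψ.toRingHom (opD S P δ l) = _
    rw [apply_opD S P δ _ l (hcop l hl hlL), hψ, hχ1, hμ1, hone l (hcop l hl hlL), one_pow,
      one_mul, one_mul]

end FermatLib.MLT.Two.AuxSetup

end
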