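import Fermat.Agent.MLT.Two.Hecke.Units
import Fermat.Agent.MLT.Two.Hecke.Nonzero
import Fermat.Agent.MLT.Two.AuxHecke
import Fermat.Agent.MLT.Two.ModuleBase
import Fermat.Agent.MLT.Hecke.GammaHHecke
import Mathlib.LinearAlgebra.FreeModule.Basic

/-!
# V4-Module: the module `M''` and its Hecke algebra at an auxiliary level

Coefficients are `A = O[Δ × Δ']`, the nebentype is `(δ, 1)`, the twist `(1, δ)`; the Hecke algebra
is generated over `A` by the `T l`, `l ∤ 2 L`.
-/

set_option autoImplicit false

noncomputable section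

open CongruenceSubgroup IsLocalRing

namespace FermatLib.MLT.Two.AuxSetup

open AuxGroup

variable {O : Type} [CommRing O] {k : Type} [Field k] (S : System O k)
  {ι : Type} [Fintype ι] [DecidableEq ι] {n : ℕ} (P : ι → AuxPlace)

/-- The primes prime to `2 L`. -/
def goodPrimes : Set Nat.Primes := {l | ¬ (l : ℕ) ∣ 2 * auxLevel S P}

/-- The residual character of Hecke polynomials. -/
def residTheta : BettiHeckeAlg O →+* k :=
  MvPolynomial.eval₂Hom S.red fun l => S.red (S.ap l : O)

@[simp] theorem residTheta_C (a : O) : residTheta S (MvPolynomial.C a) = S.red a :=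
  MvPolynomial.eval₂Hom_C _ _ _

@[simp] theorem residTheta_X (l : Nat.Primes) :
    residTheta S (MvPolynomial.X l) = S.red (S.ap l : O) :=
  MvPolynomial.eval₂Hom_X' _ _ _

/-- The coefficients `O[Δ × Δ']`. -/
abbrev Coeff (O : Type) [CommRing O] (ι : Type) (n : ℕ) : Type := MonoidAlgebra O (Both ι n)

variable (δ : (ZMod (auxLevel S P))ˣ →* Diamonds ι n)

/-- The nebentype. -/
def fstChar : (ZMod (auxLevel S P))ˣ →* Both ι n := (MonoidHom.inl _ _).comp δ

/-- The twist. -/
def sndChar : (ZMod (auxLevel S P))ˣ →* Both ι n := (MonoidHom.inr _ _).comp δ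

/-- The residual character with coefficients in `A`. -/
abbrev thetaA : BettiHeckeAlg (Coeff O ι n) →+* k := auxTheta (residTheta S)

/-- The module. -/
abbrev Mod : Type :=
  BettiResLoc (auxChar O (fstChar S P δ)) (goodPrimes S P) (thetaA S (ι := ι) (n := n))

/-- The Hecke algebra. -/
abbrev Hecke : Type :=
  bettiResHecke (auxChar O (fstChar S P δ)) (goodPrimes S P) (thetaA S (ι := ι) (n := n))

/-- A group element in the Hecke algebra. -/
def grp (x : Both ι n) : Hecke S P δ :=
  algebraMap (Coeff O ι n) (Hecke S P δ) (MonoidAlgebra.single x 1)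

theorem grp_mul (x y : Both ι n) : grp S P δ (x * y) = grp S P δ x * grp S P δ y := by
  rw [grp, grp, grp, ← map_mul, MonoidAlgebra.single_mul_single, mul_one]

theorem grp_one : grp S P δ 1 = 1 := by
  rw [grp, ← MonoidAlgebra.one_def, map_one]

theorem grp_pow (x : Both ι n) (m : ℕ) : grp S P δ x ^ m = grp S P δ (x ^ m) := by
  rw [grp, grp, ← map_pow, MonoidAlgebra.single_pow, one_pow]

theorem grp_prod {β : Type} (s : Finset β) (x : β → Both ι n) :
    ∏ b ∈ s, grp S P δ (x b) = grp S P δ (∏ b ∈ s, x b) := by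
  classical
  induction s using Finset.induction with
  | empty => simp [grp_one]
  | insert b s hb ih => rw [Finset.prod_insert hb, Finset.prod_insert hb, ih, grp_mul]

/-- The twisted operator `δ'(l) T l`. -/
def opT (l : ℕ) : Hecke S P δ :=
  if h : l.Prime ∧ ¬ l ∣ 2 * auxLevel S P then
    grp S P δ (sndChar S P δ (ZMod.unitOfCoprime l
        (h.1.coprime_iff_not_dvd.mpr fun hd => h.2 (hd.mul_left 2)))) *
      bettiResGen _ _ _ ⟨⟨l, h.1⟩, h.2⟩
  else 0

/-- The twisted determinant `l δ(l) δ'(l)²`. -/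
def opD (l : ℕ) : Hecke S P δ :=
  if h : l.Coprime (auxLevel S P) then
    (l : Hecke S P δ) * grp S P δ (fstChar S P δ (ZMod.unitOfCoprime l h)) *
      grp S P δ (sndChar S P δ (ZMod.unitOfCoprime l h)) ^ 2
  else 0

/-- The two inertia characters at the `i`-th place. -/
def opXi (i : ι) (j : Fin 2) : Hecke S P δ := grp S P δ (xiGrp i j)

theorem opXi_pow (i : ι) (j : Fin 2) : opXi S P δ i j ^ 2 ^ n = 1 := by
  rw [opXi, grp_pow, both_pow, grp_one]

theorem prod_opXi_pow (e : ι → Fin 2 → Fin (2 ^ n)) :
    ∏ i, ∏ j, opXi S P δ i j ^ (e i j : ℕ) = grp S P δ (monomial e) := by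
  simp only [opXi, grp_pow, grp_prod, monomial]

section hyp

variable [IsDomain O] [IsDiscreteValuationRing O] [IsAdicComplete (maximalIdeal O) O] [CharZero O]

theorem ker_red_eq_maximalIdeal : RingHom.ker S.red = maximalIdeal O :=
  eq_maximalIdeal (RingHom.ker_isMaximal_of_surjective S.red S.red_surjective)

include S in
theorem two_mem : (2 : O) ∈ maximalIdeal O := by
  rw [← ker_red_eq_maximalIdeal S, S.ker_red]
  exact Ideal.mem_span_singleton_self _

theorem residTheta_C_eq_zero : ∀ a ∈ maximalIdeal O, residTheta S (MvPolynomial.C a) = 0 :=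
  fun a ha => by
    rw [residTheta_C, ← RingHom.mem_ker, ker_red_eq_maximalIdeal S]
    exact ha

theorem exists_prime_dvd_level {k' : Type} [Field k'] (a : Anchor k') :
    ∃ q, q.Prime ∧ q ∣ a.N ∧ q % 4 = 3 := by
  by_contra hcon
  push Not at hcon
  have hall : ∀ q ∈ a.N.primeFactors, q % 4 = 1 := by
    intro q hq
    have hq' := Nat.prime_of_mem_primeFactors hq
    have hd := Nat.dvd_of_mem_primeFactors hq
    have h3 := hcon q hq' hd
    have h2 : q % 2 = 1 := (hq'.eq_two_or_odd).resolve_left fun h => by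
      subst h
      have := a.level_mod
      omega
    omega
  have h1 : (∏ q ∈ a.N.primeFactors, q) % 4 = 1 := by
    rw [Finset.prod_nat_mod, Finset.prod_eq_one hall, Nat.one_mod]
  rw [Nat.prod_primeFactors_of_squarefree a.squarefree] at h1
  have := a.level_mod
  omega

theorem noElliptic : NoEllipticTwo O (auxLevel S P) ∧ NoEllipticThree O (auxLevel S P) := by
  refine ⟨?_, Or.inl ?_⟩
  · obtain ⟨q, hq, hqN, hq4⟩ := exists_prime_dvd_level S.anchor
    exact noEllipticTwo_of_dvd O (Or.inr ⟨q, hq, hqN.trans (level_dvd_auxLevel S P), hq4⟩)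
  · by_contra h
    have h3 : (3 : O) ∈ maximalIdeal O := h
    have h1 := sub_mem h3 (two_mem S)
    norm_num at h1

theorem auxHyp (hneg : δ (-1) = 1) :
    AuxHyp (fstChar S P δ) (goodPrimes S P) (residTheta S) where
  neg_one := by rw [fstChar, MonoidHom.comp_apply, hneg, map_one]
  residual := residTheta_C_eq_zero S
  noTwo := (noElliptic S P).1
  noThree := (noElliptic S P).2
  nonEisenstein := by
    obtain ⟨l, hl, -, hap⟩ :=
      exists_prime_red_ap_ne_zero S (auxLevel S P) (2 * auxLevel S P).primeFactors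
    have hl' : ¬ (l : ℕ) ∣ 2 * auxLevel S P := fun h => hl (Nat.mem_primeFactors.mpr
      ⟨l.2, h, mul_ne_zero two_ne_zero (NeZero.ne _)⟩)
    refine ⟨l, hl', fun h => hl' (h.mul_left 2), ?_⟩
    rw [residTheta_X, residTheta_C, map_add, map_natCast, map_one]
    obtain ⟨d, hd⟩ := l.2.odd_of_ne_two fun h => hl' (by rw [h]; exact dvd_mul_right 2 _)
    have hl0 : (((l : ℕ) : k) + 1) = 0 := by
      rw [hd]
      push_cast
      linear_combination ((d : k) + 1) * S.anchor.two_eq_zero
    rw [hl0]
    exact hap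
  isPGroup := ⟨2, Nat.prime_two, by rw [Nat.cast_two]; exact two_mem S, isPGroup_both ι n⟩

include S in
theorem coeff_isLocalRing : IsLocalRing (Coeff O ι n) :=
  haveI : Fact (Nat.Prime 2) := ⟨Nat.prime_two⟩
  isLocalRing_groupRing O _ (by rw [Nat.cast_two]; exact two_mem S) (isPGroup_both ι n)

theorem coeff_isAdicComplete [IsLocalRing (Coeff O ι n)] :
    IsAdicComplete (maximalIdeal (Coeff O ι n)) (Coeff O ι n) :=
  isAdicComplete_groupRing O _

variable (hneg : δ (-1) = 1)

include hneg

theorem mod_finite : Module.Finite (Coeff O ι n) (Mod S P δ) :=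
  (auxHyp S P δ hneg).auxModule_finite

theorem mod_free : Module.Free (Coeff O ι n) (Mod S P δ) :=
  (auxHyp S P δ hneg).auxModule_free

theorem mod_nontrivial (hmod : IsResidModular S) : Nontrivial (Mod S P δ) :=
  haveI : Nontrivial (LevelModule (auxLevel S P) (goodPrimes S P) (residTheta S)) :=
    nontrivial_auxLevelModule S P hmod (two_mem S) _ (fun _ => Iff.rfl) _
      (residTheta_C_eq_zero S) (fun l _ => by rw [residTheta_X, residTheta_C])
      (noElliptic S P).1 (noElliptic S P).2
  (auxHyp S P δ hneg).auxModule_nontrivial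

end hyp

section char

theorem thetaA_C (a : Coeff O ι n) :
    thetaA S (MvPolynomial.C a) = S.red (groupAug a) := by
  rw [thetaA, auxTheta, RingHom.comp_apply, MvPolynomial.map_C, residTheta_C]
  rfl

theorem thetaA_X (l : Nat.Primes) :
    thetaA S (ι := ι) (n := n) (MvPolynomial.X l) = S.red (S.ap l : O) := by
  rw [thetaA, auxTheta, RingHom.comp_apply, MvPolynomial.map_X, residTheta_X]

variable [Nontrivial (Mod S P δ)]

/-- The residual character. -/
abbrev redH : Hecke S P δ →+* k := bettiResChar _ _ _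

theorem redH_algebraMap (a : Coeff O ι n) :
    redH S P δ (algebraMap _ _ a) = S.red (groupAug a) := by
  rw [← AlgHom.commutes (bettiResQuot (auxChar O (fstChar S P δ)) (goodPrimes S P)
    (thetaA S (ι := ι) (n := n))) a, redH, bettiResChar_quot]
  exact thetaA_C S a

theorem redH_grp (x : Both ι n) : redH S P δ (grp S P δ x) = 1 := by
  rw [grp, redH_algebraMap, groupAug_single, map_one]

theorem redH_base (c : O) : redH S P δ (algebraMap O _ c) = S.red c := by
  rw [IsScalarTower.algebraMap_apply O (Coeff O ι n) (Hecke S P δ), redH_algebraMap,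
    AlgHom.commutes, Algebra.algebraMap_self_apply]

theorem redH_opT (l : ℕ) (hl : l.Prime) (hlL : ¬ l ∣ 2 * auxLevel S P) :
    redH S P δ (opT S P δ l) = S.red (S.ap l : O) := by
  rw [opT, dif_pos ⟨hl, hlL⟩, map_mul, redH_grp, one_mul, redH, bettiResChar_gen]
  exact thetaA_X S _

end char

section structure'

variable [IsDomain O] [IsDiscreteValuationRing O] [IsAdicComplete (maximalIdeal O) O] [CharZero O]
  (hneg : δ (-1) = 1)

include hneg

theorem hecke_finite : Module.Finite O (Hecke S P δ) := by
  have := coeff_isLocalRing S (ι := ι) (n := n)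
  have := coeff_isAdicComplete (O := O) (ι := ι) (n := n)
  have := bettiResHecke_finite (auxChar O (fstChar S P δ)) (goodPrimes S P)
    (thetaA S (ι := ι) (n := n)) (auxHyp S P δ hneg).auxTheta_C
  exact Module.Finite.trans (Coeff O ι n) _

theorem hecke_isLocalRing [Nontrivial (Mod S P δ)] : IsLocalRing (Hecke S P δ) := by
  have := coeff_isLocalRing S (ι := ι) (n := n)
  have := coeff_isAdicComplete (O := O) (ι := ι) (n := n)
  exact bettiResHecke_isLocalRing _ _ _ (auxHyp S P δ hneg).auxTheta_C

theorem ker_redH [Nontrivial (Mod S P δ)] [IsLocalRing (Hecke S P δ)] :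
    RingHom.ker (redH S P δ) = maximalIdeal (Hecke S P δ) := by
  have := coeff_isLocalRing S (ι := ι) (n := n)
  have := coeff_isAdicComplete (O := O) (ι := ι) (n := n)
  ext t
  rw [RingHom.mem_ker]
  exact (bettiResHecke_mem_maximalIdeal_iff _ _ _ (auxHyp S P δ hneg).auxTheta_C t).symm

theorem eq_zero_of_smul_eq_zero (c : O) (z : Hecke S P δ) (h : c • z = 0) :
    c = 0 ∨ z = 0 := by
  have := mod_free S P δ hneg
  have : Module.Free O (Mod S P δ) := Module.Free.trans (S := Coeff O ι n)
  refine or_iff_not_imp_left.mpr fun hc => Subtype.ext (LinearMap.ext fun x => ?_)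
  have h1 : c • (z : Module.End (Coeff O ι n) (Mod S P δ)) x = 0 :=
    LinearMap.congr_fun (congrArg Subtype.val h) x
  exact (smul_eq_zero.mp h1).resolve_left hc

end structure'

end FermatLib.MLT.Two.AuxSetup

end
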