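import Fermat.Agent.MLT.Two.Sys.Defs
import Mathlib.RingTheory.IntegralDomain
import Mathlib.Data.ZMod.Basic
import Mathlib.LinearAlgebra.Basis.Basic

/-!
# V4-Module: the group `Δ × Δ'` and its generators from inertia

`Δ = ∏ C(2ⁿ)`; the diamond character is `(δ, 1)`, the twist `(1, δ)`; inertia elements at the
places give generators, in whose monomials the group ring has its standard basis.
-/

set_option autoImplicit false

noncomputable section

namespace FermatLib.MLT.Two.AuxGroup

local notation "Qbar" => AlgebraicClosure ℚ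
local notation "Γℚ" => (AlgebraicClosure ℚ ≃ₐ[ℚ] AlgebraicClosure ℚ)

open FermatLib.Galois

/-- Reduction of the cyclotomic character. -/
theorem unitsMap_modCycloChar {m n : ℕ} [NeZero m] [NeZero n] (h : m ∣ n) (σ : Γℚ) :
    ZMod.unitsMap h (modCycloChar n σ) = modCycloChar m σ := by
  obtain ⟨ζ, hζ⟩ := HasEnoughRootsOfUnity.exists_primitiveRoot Qbar m
  have hn : ζ ^ n = 1 := by
    obtain ⟨c, rfl⟩ := h
    rw [pow_mul, hζ.pow_eq_one, one_pow]
  refine Units.ext ?_
  rw [ZMod.unitsMap_val, modCycloChar_apply m, modularCyclotomicCharacter_eq_natCast_of_apply _ hζ _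
    (apply_eq_pow_modCycloChar n σ hn)]
  conv_lhs => rw [← ZMod.natCast_zmod_val (modCycloChar n σ : ZMod n)]
  rw [← ZMod.castHom_apply (h := h), map_natCast]

/-- The diamond group. -/
abbrev Diamonds (ι : Type) (n : ℕ) : Type := ι → Multiplicative (ZMod (2 ^ n))

/-- `Δ × Δ'`. -/
abbrev Both (ι : Type) (n : ℕ) : Type := Diamonds ι n × Diamonds ι n

theorem isPGroup_both (ι : Type) [Fintype ι] (n : ℕ) : IsPGroup 2 (Both ι n) := fun x => by
  have h : ∀ a : Multiplicative (ZMod (2 ^ n)), a ^ 2 ^ n = 1 := fun a => by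
    apply Multiplicative.toAdd.injective
    simp
  exact ⟨n, Prod.ext (funext fun i => h _) (funext fun i => h _)⟩

theorem both_pow (ι : Type) (n : ℕ) (x : Both ι n) : x ^ 2 ^ n = 1 := by
  have h : ∀ a : Multiplicative (ZMod (2 ^ n)), a ^ 2 ^ n = 1 := fun a => by
    apply Multiplicative.toAdd.injective
    simp
  exact Prod.ext (funext fun i => h _) (funext fun i => h _)

variable {ι : Type} [Fintype ι] [DecidableEq ι] {n : ℕ}

/-- The `i`-th generator of `Δ`. -/
def gen (i : ι) : Diamonds ι n := Pi.mulSingle i (Multiplicative.ofAdd 1)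

/-- The two generators of `Δ × Δ'` at `i`. -/
def xiGrp (i : ι) : Fin 2 → Both ι n := ![(1, gen i), (gen i, gen i)]

/-- The monomial in the generators with exponents `e`. -/
def monomial (e : ι → Fin 2 → Fin (2 ^ n)) : Both ι n := ∏ i, ∏ j, xiGrp i j ^ (e i j : ℕ)

theorem prod_gen_pow (e : ι → ℕ) :
    ∏ i, (gen i : Diamonds ι n) ^ e i = fun i => Multiplicative.ofAdd (e i : ZMod (2 ^ n)) := by
  funext j
  rw [Finset.prod_apply, Finset.prod_eq_single j]
  · rw [Pi.pow_apply, gen, Pi.mulSingle_eq_same, ← ofAdd_nsmul, nsmul_one]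
  · intro i _ hij
    rw [Pi.pow_apply, gen, Pi.mulSingle_eq_of_ne (Ne.symm hij), one_pow]
  · exact fun h => absurd (Finset.mem_univ j) h

theorem monomial_eq (e : ι → Fin 2 → Fin (2 ^ n)) :
    monomial e =
      ((fun i => Multiplicative.ofAdd ((e i 1 : ℕ) : ZMod (2 ^ n))),
        fun i => Multiplicative.ofAdd (((e i 0 : ℕ) + (e i 1 : ℕ) : ℕ) : ZMod (2 ^ n))) := by
  simp only [monomial, Fin.prod_univ_two, xiGrp, Matrix.cons_val_zero, Matrix.cons_val_one]
  rw [← prod_gen_pow, ← prod_gen_pow]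
  refine Prod.ext ?_ ?_
  · rw [Prod.fst_prod]
    exact Finset.prod_congr rfl fun i _ => by simp
  · rw [Prod.snd_prod]
    exact Finset.prod_congr rfl fun i _ => by simp [pow_add]

/-- The monomials in the generators are the whole group, once each. -/
theorem monomial_bijective :
    Function.Bijective (monomial (ι := ι) (n := n)) := by
  have hpos : 0 < 2 ^ n := pow_pos two_pos n
  refine ⟨fun e e' h => ?_, fun x => ?_⟩
  · simp only [monomial_eq, Prod.ext_iff, funext_iff, Equiv.apply_eq_iff_eq] at h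
    have key : ∀ a b : Fin (2 ^ n), ((a : ℕ) : ZMod (2 ^ n)) = (b : ℕ) → a = b := fun a b hab =>
      Fin.ext (Nat.ModEq.eq_of_lt_of_lt ((ZMod.natCast_eq_natCast_iff _ _ _).mp hab) a.isLt b.isLt)
    funext i j
    have h1 := key _ _ (h.1 i)
    have h0 := h.2 i
    rw [Nat.cast_add, Nat.cast_add, h1, add_left_inj] at h0
    fin_cases j
    · exact key _ _ h0
    · exact h1
  · let a : ι → ZMod (2 ^ n) := fun i => Multiplicative.toAdd (x.1 i)
    let b : ι → ZMod (2 ^ n) := fun i => Multiplicative.toAdd (x.2 i)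
    refine ⟨fun i => ![⟨(b i - a i).val, ZMod.val_lt _⟩, ⟨(a i).val, ZMod.val_lt _⟩], ?_⟩
    simp only [monomial_eq, Matrix.cons_val_zero, Matrix.cons_val_one, Nat.cast_add,
      ZMod.natCast_zmod_val, sub_add_cancel]
    rfl

variable {O : Type} [CommRing O] {k : Type} [Field k] (S : System O k) {P : ι → AuxPlace}

/-- The character of `(ℤ/L)ˣ` to `Δ` and inertia elements hitting the generators. -/
theorem exists_diamond (hP : IsDepth S n P) :
    ∃ (δ : (ZMod (auxLevel S P))ˣ →* Diamonds ι n) (tau : ι → Γℚ),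
      δ (-1) = 1 ∧
      (∀ u, (∀ i, ZMod.unitsMap (dvd_auxLevel S P i) u = 1) → δ u = 1) ∧
      (∀ i, tau i ∈ (P i).A.inertiaSubgroupIn ℚ) ∧
      ∀ i, δ (modCycloChar (auxLevel S P) (tau i)) = gen i := by
  have hsel : ∀ i, ∃ (γ : (ZMod (P i).q)ˣ) (g : (ZMod (P i).q)ˣ →* Multiplicative (ZMod (2 ^ n))),
      g (-1) = 1 ∧ g γ = Multiplicative.ofAdd 1 := by
    intro i
    have hq := (P i).hq
    have : Fact (P i).q.Prime := ⟨hq⟩
    obtain ⟨γ, hγ⟩ := IsCyclic.exists_generator (α := (ZMod (P i).q)ˣ)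
    have hordγ : orderOf γ = (P i).q - 1 := by
      rw [orderOf_eq_card_of_forall_mem_zpowers hγ, Nat.card_eq_fintype_card, ZMod.card_units]
    have hord : orderOf (Multiplicative.ofAdd (1 : ZMod (2 ^ n))) ∣ orderOf γ := by
      rw [hordγ, orderOf_ofAdd_eq_addOrderOf, ZMod.addOrderOf_one]
      exact (pow_dvd_pow 2 (Nat.le_succ n)).trans (hP.one_mod i)
    refine ⟨γ, monoidHomOfForallMemZpowers hγ hord, ?_,
      monoidHomOfForallMemZpowers_apply_gen hγ hord⟩
    obtain ⟨m, hm : γ ^ m = -1⟩ := mem_powers_iff_mem_zpowers.mpr (hγ (-1))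
    have h1 : γ ^ (2 * m) = 1 := by rw [mul_comm, pow_mul, hm, neg_one_sq]
    have h2 : 2 ^ (n + 1) ∣ 2 * m :=
      (hP.one_mod i).trans (hordγ ▸ orderOf_dvd_of_pow_eq_one h1)
    have h3 : 2 ^ n ∣ m := by
      rw [pow_succ'] at h2
      exact Nat.dvd_of_mul_dvd_mul_left two_pos h2
    rw [← hm, map_pow, monoidHomOfForallMemZpowers_apply_gen, ← ofAdd_nsmul, nsmul_one,
      (ZMod.natCast_eq_zero_iff _ _).mpr h3, ofAdd_zero]
  choose γ g hg1 hgγ using hsel
  have htau : ∀ i, ∃ τ ∈ (P i).A.inertiaSubgroupIn ℚ,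
      haveI : NeZero (P i).q := ⟨(P i).hq.ne_zero⟩
      modCycloChar (P i).q τ = γ i := by
    intro i
    have : Fact (P i).q.Prime := ⟨(P i).hq⟩
    have : NeZero (P i).q := ⟨(P i).hq.ne_zero⟩
    obtain ⟨τ, hτ, h⟩ := exists_inertia_cycloChar_eq (P i).hA (γ i)
    exact ⟨τ, hτ, by rw [modCycloChar_eq_cycloChar]; exact h⟩
  choose tau hτ hτγ using htau
  refine ⟨MonoidHom.pi fun i => (g i).comp (ZMod.unitsMap (dvd_auxLevel S P i)), tau, ?_, ?_, hτ,
    ?_⟩
  · funext i
    show g i (ZMod.unitsMap _ (-1)) = 1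
    convert hg1 i using 2
    refine Units.ext ?_
    rw [ZMod.unitsMap_val, Units.val_neg, Units.val_neg, Units.val_one, Units.val_one,
      ← ZMod.castHom_apply (h := dvd_auxLevel S P i), map_neg, map_one]
  · intro u hu
    funext i
    show g i (ZMod.unitsMap _ u) = 1
    rw [hu i, map_one]
  · intro i
    funext j
    have : NeZero (P j).q := ⟨(P j).hq.ne_zero⟩
    show g j (ZMod.unitsMap (dvd_auxLevel S P j) (modCycloChar _ (tau i))) = _
    rw [unitsMap_modCycloChar, gen]
    rcases eq_or_ne j i with rfl | hne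
    · rw [Pi.mulSingle_eq_same, hτγ, hgγ]
    · rw [Pi.mulSingle_eq_of_ne hne, modCycloChar_inertia (P i).hq (fun h => hne (hP.injective
        ((Nat.prime_dvd_prime_iff_eq (P i).hq (P j).hq).mp h)).symm) (P i).hA (hτ i), map_one]

/-- A basis over the group ring gives monomial coordinates over `O`. -/
theorem bijective_monomial_coords {R : Type} [CommRing R] {M : Type} [AddCommGroup M]
    [Module (MonoidAlgebra R (Both ι n)) M] [Module R M]
    [IsScalarTower R (MonoidAlgebra R (Both ι n)) M] {d : ℕ}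
    (b : Module.Basis (Fin d) (MonoidAlgebra R (Both ι n)) M) :
    Function.Bijective fun c : Fin d → (ι → Fin 2 → Fin (2 ^ n)) → R =>
      ∑ l, ∑ e : ι → Fin 2 → Fin (2 ^ n), c l e •
        ((MonoidAlgebra.single (monomial e) (1 : R)) • b l) := by
  let E : (ι → Fin 2 → Fin (2 ^ n)) ≃ Both ι n := Equiv.ofBijective _ monomial_bijective
  let B : Module.Basis (Both ι n) R (MonoidAlgebra R (Both ι n)) :=
    MonoidAlgebra.basis (Both ι n) R
  have key : (fun c : Fin d → (ι → Fin 2 → Fin (2 ^ n)) → R =>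
      ∑ l, ∑ e : ι → Fin 2 → Fin (2 ^ n), c l e •
        ((MonoidAlgebra.single (monomial e) (1 : R)) • b l)) =
      b.equivFun.symm ∘ fun c l => (B.reindex E.symm).equivFun.symm (c l) := by
    funext c
    simp only [Function.comp_apply, Module.Basis.equivFun_symm_apply]
    refine Finset.sum_congr rfl fun l _ => ?_
    rw [Finset.sum_smul]
    refine Finset.sum_congr rfl fun e _ => ?_
    rw [smul_assoc]
    simp [B, E]
  rw [key]
  exact b.equivFun.symm.bijective.comp
    (Function.Bijective.piMap fun _ => (B.reindex E.symm).equivFun.symm.bijective)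

end FermatLib.MLT.Two.AuxGroup

end
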